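import Fermat.Agent.BGK.Main
import Fermat.Agent.ThreePrimes.Circle
import Mathlib.Combinatorics.Additive.CauchyDavenport

/-!
# Applications

The sum-product theorem of Bourgain, Katz and Tao in `ZMod p`; every residue is a sum of boundedly
many elements of a subgroup of size `p ^ δ`; such a subgroup is equidistributed in the intervals.
-/

set_option autoImplicit false

noncomputable section

namespace FA.BGK

open Finset FA.ThreePrimes
open scoped Pointwise ComplexConjugate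

variable {p : ℕ} [Fact p.Prime]

/-- If `#(A + A)` and `#(A A)` are at most `K #A` then many dilates are good for `A`. -/
theorem exists_good_of_doubling {A : Finset (ZMod p)} (h0 : (0 : ZMod p) ∉ A) (hA : A.Nonempty)
    {K : ℝ} (hadd : (#(A + A) : ℝ) ≤ K * #A) (hmul : (#(A * A) : ℝ) ≤ K * #A) :
    ∃ B : Finset (ZMod p), (#A : ℝ) ≤ 2 * K * #B ∧ ∀ ξ, ξ = 1 ∨ ξ ∈ B → Good A (2 * K ^ 3) ξ := by
  obtain ⟨n, hn⟩ : ∃ n : ℝ, n = #A := ⟨_, rfl⟩
  have hn0 : 0 < n := hn ▸ Nat.cast_pos.2 hA.card_pos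
  have hK : 1 ≤ K := by
    have h : (#A : ℝ) ≤ #(A + A) := Nat.cast_le.2 (card_le_card_add_left hA)
    exact le_of_mul_le_mul_right (by rw [one_mul]; exact h.trans hadd) (hn ▸ hn0)
  obtain ⟨r, hr⟩ : ∃ r : ZMod p → ℕ, r = fun x => #(A.filter fun a => x ∈ dil a A) := ⟨_, rfl⟩
  have hsum : ∀ S : Finset (ZMod p), ∑ x ∈ S, r x = ∑ a ∈ A, #(S.filter fun x => x ∈ dil a A) := by
    intro S
    simp only [hr, card_filter]
    rw [sum_comm]
  have h1 : ∑ x ∈ A * A, r x = #A ^ 2 := by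
    rw [hsum, sum_congr rfl (g := fun _ => #A) fun a ha => ?_, sum_const, smul_eq_mul, sq]
    rw [← card_dil (fun e => h0 (e ▸ ha) : a ≠ 0) A]
    congr 1
    ext x
    simp only [mem_filter, and_iff_right_iff_imp]
    intro hx
    obtain ⟨b, hb, rfl⟩ := mem_dil.1 hx
    exact mul_mem_mul ha hb
  have h2 : ∑ x ∈ A * A, r x ^ 2 ≤ ∑ a₀ ∈ A, ∑ a ∈ A, #(dil a A ∩ dil a₀ A) := by
    simp only [hr, card_filter, sq, sum_mul_sum, ite_zero_mul_ite_zero, one_mul]
    rw [sum_comm]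
    refine sum_le_sum fun a _ => ?_
    rw [sum_comm]
    refine sum_le_sum fun b _ => ?_
    rw [← card_filter]
    exact card_le_card fun x hx => mem_inter.2 (mem_filter.1 hx).2.symm
  obtain ⟨a₀, ha₀, hbest⟩ : ∃ a₀ ∈ A, n ^ 2 / K ≤ ∑ a ∈ A, (#(dil a A ∩ dil a₀ A) : ℝ) := by
    refine exists_le_of_sum_le hA ?_
    rw [sum_const, nsmul_eq_mul, ← hn, mul_div_assoc', div_le_iff₀ (by linarith)]
    have hcs : (∑ x ∈ A * A, (r x : ℝ)) ^ 2 ≤ #(A * A) * ∑ x ∈ A * A, (r x : ℝ) ^ 2 :=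
      sq_sum_le_card_mul_sum_sq
    rw [show ∑ x ∈ A * A, (r x : ℝ) = n ^ 2 by rw [hn]; exact_mod_cast h1] at hcs
    have h2' : ∑ x ∈ A * A, (r x : ℝ) ^ 2 ≤ ∑ a₀ ∈ A, ∑ a ∈ A, (#(dil a A ∩ dil a₀ A) : ℝ) := by
      exact_mod_cast h2
    refine le_of_mul_le_mul_left ?_ hn0
    calc n * (n * n ^ 2) = (n ^ 2) ^ 2 := by ring
      _ ≤ #(A * A) * ∑ x ∈ A * A, (r x : ℝ) ^ 2 := hcs
      _ ≤ K * n * ∑ a₀ ∈ A, ∑ a ∈ A, (#(dil a A ∩ dil a₀ A) : ℝ) :=
          mul_le_mul (hn ▸ hmul) h2' (by positivity) (by positivity)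
      _ = _ := by ring
  have ha₀0 : a₀ ≠ 0 := fun e => h0 (e ▸ ha₀)
  obtain ⟨B₀, hB₀⟩ : ∃ B₀, B₀ = A.filter fun a => n ≤ 2 * K * #(dil a A ∩ dil a₀ A) := ⟨_, rfl⟩
  refine ⟨B₀.image fun a => a₀⁻¹ * a, ?_, ?_⟩
  · rw [card_image_of_injective _ (mul_right_injective₀ (inv_ne_zero ha₀0)), ← hn]
    rw [← sum_filter_add_sum_filter_not A fun a => n ≤ 2 * K * #(dil a A ∩ dil a₀ A), ← hB₀]
      at hbest
    have h3 : ∀ a : ZMod p, (#(dil a A ∩ dil a₀ A) : ℝ) ≤ n := fun a =>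
      hn ▸ Nat.cast_le.2 ((card_le_card inter_subset_right).trans (card_dil_le _ _))
    have h4 := sum_le_card_nsmul B₀ _ n fun a _ => h3 a
    have h5 := sum_le_card_nsmul (A.filter fun a => ¬n ≤ 2 * K * #(dil a A ∩ dil a₀ A))
      (fun a => (#(dil a A ∩ dil a₀ A) : ℝ)) (n / (2 * K)) fun a ha => by
        rw [le_div_iff₀ (by linarith)]
        linarith [(mem_filter.1 ha).2]
    rw [nsmul_eq_mul] at h4 h5
    have h6 : (#(A.filter fun a => ¬n ≤ 2 * K * #(dil a A ∩ dil a₀ A)) : ℝ) * (n / (2 * K)) ≤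
        n * (n / (2 * K)) :=
      mul_le_mul_of_nonneg_right (hn ▸ Nat.cast_le.2 (card_filter_le _ _)) (by positivity)
    have h7 : n ^ 2 / K = 2 * (n * (n / (2 * K))) := by field_simp
    have h8 : n * (n / (2 * K)) ≤ #B₀ * n := by linarith
    rw [mul_div_assoc', div_le_iff₀ (by linarith)] at h8
    refine le_of_mul_le_mul_right ?_ hn0
    linarith
  · rintro ξ (rfl | hξ)
    · rw [Good, dil_one]
      refine hadd.trans (mul_le_mul_of_nonneg_right ?_ (Nat.cast_nonneg _))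
      nlinarith [one_le_pow₀ hK (n := 2)]
    obtain ⟨a, ha, rfl⟩ := mem_image.1 hξ
    rw [hB₀, mem_filter] at ha
    obtain ⟨C, hC⟩ : ∃ C, C = dil a₀⁻¹ (dil a A ∩ dil a₀ A) := ⟨_, rfl⟩
    have hCc : #C = #(dil a A ∩ dil a₀ A) := hC ▸ card_dil (inv_ne_zero ha₀0) _
    have hC1 : C ⊆ dil (a₀⁻¹ * a) A := by
      rw [hC, ← dil_dil]
      exact image_subset_image inter_subset_left
    have hC2 : C ⊆ A := fun x hx => by
      rw [hC] at hx
      obtain ⟨y, hy, rfl⟩ := mem_dil.1 hx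
      obtain ⟨b, hb, rfl⟩ := mem_dil.1 (mem_inter.1 hy).2
      rwa [inv_mul_cancel_left₀ ha₀0]
    have hne : a₀⁻¹ * a ≠ 0 := mul_ne_zero (inv_ne_zero ha₀0) fun e => h0 (e ▸ ha.1)
    have h5 := (ruzsa_triangle_inequality_add_add_add A C (dil (a₀⁻¹ * a) A)).trans
      (Nat.mul_le_mul (card_le_card (add_subset_add_left hC2))
        (card_le_card (add_subset_add_right hC1)))
    rw [← dil_add, card_dil hne, hCc] at h5
    have h6 : (#(A + dil (a₀⁻¹ * a) A) : ℝ) * #(dil a A ∩ dil a₀ A) ≤ (K * n) * (K * n) :=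
      le_trans (by exact_mod_cast h5) (mul_le_mul (hn ▸ hadd) (hn ▸ hadd) (Nat.cast_nonneg _)
        (by positivity))
    rw [Good, ← hn]
    refine le_of_mul_le_mul_right ?_ hn0
    calc (#(A + dil (a₀⁻¹ * a) A) : ℝ) * n
        ≤ #(A + dil (a₀⁻¹ * a) A) * (2 * K * #(dil a A ∩ dil a₀ A)) :=
          mul_le_mul_of_nonneg_left ha.2 (Nat.cast_nonneg _)
      _ = 2 * K * (#(A + dil (a₀⁻¹ * a) A) * #(dil a A ∩ dil a₀ A)) := by ring
      _ ≤ 2 * K * ((K * n) * (K * n)) := mul_le_mul_of_nonneg_left h6 (by positivity)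
      _ = _ := by ring

/-- **The sum-product theorem of Bourgain, Katz and Tao.** -/
theorem exists_sum_product {δ : ℝ} (hδ : 0 < δ) : ∃ ε c : ℝ, 0 < ε ∧ 0 < c ∧
    ∀ (p : ℕ) [Fact p.Prime] (A : Finset (ZMod p)), (p : ℝ) ^ δ ≤ #A →
      (#A : ℝ) ≤ (p : ℝ) ^ (1 - δ) →
        c * (p : ℝ) ^ ε * #A ≤ max (#(A + A) : ℝ) #(A * A) := by
  obtain ⟨θ, hθ⟩ : ∃ θ : ℝ, θ = δ / 4 := ⟨_, rfl⟩
  have hθ0 : 0 < θ := by rw [hθ]; positivity
  obtain ⟨N, C, hN, hC, hgrow⟩ := exists_good_bound (δ := θ) (η := θ) hθ0 hθ0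
  obtain ⟨ε, hε⟩ : ∃ ε : ℝ, ε = θ / (12 * N) := ⟨_, rfl⟩
  have hN1 : (1 : ℝ) ≤ N := by exact_mod_cast hN
  have hε0 : 0 < ε := by rw [hε]; positivity
  have hεN : 12 * ((N : ℝ) * ε) = θ := by rw [hε]; field_simp
  have hεθ : 12 * ε ≤ θ := by nlinarith
  obtain ⟨P₀, hP₀⟩ := Filter.eventually_atTop.1 (((tendsto_rpow_atTop hε0).eventually_ge_atTop
    8).and (((tendsto_rpow_atTop hθ0).eventually_ge_atTop 2).and
      (((tendsto_rpow_atTop (half_pos hθ0)).eventually_gt_atTop C).and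
        (Filter.eventually_ge_atTop (1 : ℝ)))))
  refine ⟨ε, min 1 (1 / (max P₀ 1) ^ ε), hε0, by positivity, fun p _ A hA1 hA2 => ?_⟩
  have hp1 : (1 : ℝ) ≤ p := by exact_mod_cast (Fact.out : p.Prime).one_le
  have hp0 : (0 : ℝ) < p := by linarith
  have hA0 : (0 : ℝ) < #A := lt_of_lt_of_le (by positivity) hA1
  have hAne : A.Nonempty := card_pos.1 (Nat.cast_pos.1 hA0)
  rcases lt_or_ge (p : ℝ) P₀ with hsmall | hlarge
  · refine le_trans ?_ (le_max_of_le_left (Nat.cast_le.2 (card_le_card_add_left hAne)))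
    refine mul_le_of_le_one_left hA0.le ?_
    refine (mul_le_mul_of_nonneg_right (min_le_right _ _) (by positivity)).trans ?_
    rw [one_div_mul_eq_div, div_le_one (by positivity)]
    exact Real.rpow_le_rpow hp0.le (hsmall.le.trans (le_max_left _ _)) hε0.le
  obtain ⟨hP1, hP2, hP3, -⟩ := hP₀ p hlarge
  refine le_trans (mul_le_mul_of_nonneg_right (mul_le_of_le_one_left (by positivity)
    (min_le_left _ _)) hA0.le) ?_
  by_contra hcon
  rw [not_le, max_lt_iff] at hcon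
  obtain ⟨A', hA'⟩ : ∃ A', A' = A.erase 0 := ⟨_, rfl⟩
  have hsub : A' ⊆ A := hA' ▸ erase_subset _ _
  have hAA' : (#A : ℝ) ≤ #A' + 1 := by
    rw [hA']
    exact_mod_cast (show #A ≤ #(A.erase 0) + 1 by
      have := pred_card_le_card_erase (s := A) (a := (0 : ZMod p))
      omega)
  have hθp : (p : ℝ) ^ (2 * θ) ≤ #A :=
    le_trans (Real.rpow_le_rpow_of_exponent_le hp1 (by linarith)) hA1
  rw [two_mul, Real.rpow_add hp0] at hθp
  have h4 : 2 * (p : ℝ) ^ θ ≤ #A := le_trans (mul_le_mul_of_nonneg_right hP2 (by positivity)) hθp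
  have hA'lo : (p : ℝ) ^ θ ≤ #A' := by linarith
  have hA'2 : (#A : ℝ) ≤ 2 * #A' := by linarith
  have hA'ne : A'.Nonempty := card_pos.1 (Nat.cast_pos.1 (lt_of_lt_of_le (by positivity) hA'lo))
  obtain ⟨K, hK⟩ : ∃ K : ℝ, K = 2 * (p : ℝ) ^ ε := ⟨_, rfl⟩
  have hbd : ∀ S : Finset (ZMod p), (#S : ℝ) < (p : ℝ) ^ ε * #A → (#S : ℝ) ≤ K * #A' :=
    fun S hS => hS.le.trans (by
      rw [hK, mul_assoc, mul_left_comm]
      exact mul_le_mul_of_nonneg_left hA'2 (by positivity))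
  obtain ⟨B, hB, hgood⟩ := exists_good_of_doubling (hA' ▸ notMem_erase _ _) hA'ne
    ((Nat.cast_le.2 (card_le_card (add_subset_add hsub hsub))).trans (hbd _ hcon.1))
    ((Nat.cast_le.2 (card_le_card (mul_subset_mul hsub hsub))).trans (hbd _ hcon.2))
  have hpε : (1 : ℝ) ≤ (p : ℝ) ^ ε := Real.one_le_rpow hp1 hε0.le
  have hK2 : 2 * K ≤ (p : ℝ) ^ (2 * ε) := by
    rw [hK, two_mul ε, Real.rpow_add hp0]
    calc 2 * (2 * (p : ℝ) ^ ε) = 4 * (p : ℝ) ^ ε := by ring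
      _ ≤ _ := mul_le_mul_of_nonneg_right (by linarith) (by linarith)
  have hK3 : 2 * K ^ 3 ≤ (p : ℝ) ^ (6 * ε) := by
    have h5 : K ^ 3 * 8 ≤ ((p : ℝ) ^ (2 * ε)) ^ 3 := by
      refine le_trans (le_of_eq ?_) (pow_le_pow_left₀ (by rw [hK]; positivity) hK2 3)
      ring
    rw [← Real.rpow_natCast ((p : ℝ) ^ _) 3, ← Real.rpow_mul hp0.le] at h5
    push_cast at h5
    rw [show 2 * ε * 3 = 6 * ε by ring] at h5
    have : 0 ≤ K ^ 3 := by rw [hK]; positivity
    linarith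
  have hBlo : (p : ℝ) ^ θ ≤ #B := by
    refine le_of_mul_le_mul_left ?_ (Real.rpow_pos_of_pos hp0 (2 * ε))
    refine le_trans ?_ (mul_le_mul_of_nonneg_right hK2 (Nat.cast_nonneg _))
    refine le_trans ?_ hB
    refine le_of_mul_le_mul_left (le_trans ?_ hA'2) two_pos
    rw [← Real.rpow_add hp0]
    calc 2 * (p : ℝ) ^ (2 * ε + θ) ≤ (p : ℝ) ^ θ * (p : ℝ) ^ (2 * ε + θ) :=
          mul_le_mul_of_nonneg_right hP2 (by positivity)
      _ = (p : ℝ) ^ (θ + (2 * ε + θ)) := (Real.rpow_add hp0 _ _).symm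
      _ ≤ (p : ℝ) ^ δ := Real.rpow_le_rpow_of_exponent_le hp1 (by linarith)
      _ ≤ _ := hA1
  have hA'hi : (#A' : ℝ) ≤ (p : ℝ) ^ (1 - θ) :=
    ((Nat.cast_le.2 (card_le_card hsub)).trans hA2).trans
      (Real.rpow_le_rpow_of_exponent_le hp1 (by linarith))
  refine absurd (hgrow p A' B ((p : ℝ) ^ (6 * ε)) (Real.one_le_rpow hp1 (by linarith)) hA'lo hA'hi
    hBlo ((hgood 1 (Or.inl rfl)).mono hK3) fun ξ hξ => (hgood ξ (Or.inr hξ)).mono hK3) (not_le.2 ?_)
  rw [← Real.rpow_natCast ((p : ℝ) ^ _) N, ← Real.rpow_mul hp0.le,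
    show 6 * ε * (N : ℝ) = θ / 2 by linarith]
  calc C * (p : ℝ) ^ (θ / 2) < (p : ℝ) ^ (θ / 2) * (p : ℝ) ^ (θ / 2) :=
        mul_lt_mul_of_pos_right hP3 (Real.rpow_pos_of_pos hp0 _)
    _ = _ := by rw [← Real.rpow_add hp0]; ring_nf

/-- The number of ways of writing `b` as a sum of `m` elements of `H`, by characters. -/
theorem card_mul_count (H : Finset (ZMod p)) (m : ℕ) (b : ZMod p) :
    (p : ℂ) * #((Fintype.piFinset fun _ : Fin m => H).filter fun z => ∑ i, z i = b) =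
      ∑ a, (∑ h ∈ H, ZMod.stdAddChar (a * h)) ^ m * ZMod.stdAddChar (-(a * b)) := by
  simp only [sum_pow', sum_mul]
  rw [sum_comm, card_filter, Nat.cast_sum, mul_sum]
  refine sum_congr rfl fun z _ => ?_
  have e : ∀ a : ZMod p, (∏ i, ZMod.stdAddChar (a * z i)) * ZMod.stdAddChar (-(a * b)) =
      ZMod.stdAddChar (a * (∑ i, z i - b)) := fun a => by
    rw [mul_sub, mul_sum, sub_eq_add_neg, AddChar.map_add_eq_mul]
    congr 1
    induction (univ : Finset (Fin m)) using Finset.cons_induction with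
    | empty => simp
    | cons i t hi ih => rw [prod_cons, sum_cons, AddChar.map_add_eq_mul, ih]
  simp only [e]
  rw [AddChar.sum_mulShift _ (ZMod.isPrimitive_stdAddChar p), ZMod.card]
  simp only [sub_eq_zero]
  split_ifs <;> simp

theorem card_sumset_ge {H : Finset (ZMod p)} (hH : 2 ≤ #H) :
    ∀ m : ℕ, min p (m + 1) ≤ #((Fintype.piFinset fun _ : Fin m => H).image fun z => ∑ i, z i)
  | 0 => by simp
  | m + 1 => by
    have ih := card_sumset_ge hH m
    obtain ⟨T, hT⟩ : ∃ T, T = (Fintype.piFinset fun _ : Fin m => H).image fun z => ∑ i, z i :=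
      ⟨_, rfl⟩
    rw [← hT] at ih
    have hp2 := (Fact.out : p.Prime).two_le
    have hT1 : T.Nonempty := card_pos.1 (lt_of_lt_of_le (lt_min (by omega) (by omega)) ih)
    have hH1 : H.Nonempty := card_pos.1 (by omega)
    refine le_trans (le_trans ?_ (ZMod.cauchy_davenport Fact.out hH1 hT1))
      (card_le_card fun x hx => ?_)
    · omega
    · obtain ⟨u, hu, t, ht, rfl⟩ := mem_add.1 hx
      obtain ⟨z, hz, rfl⟩ := mem_image.1 (hT ▸ ht)
      refine mem_image.2 ⟨Fin.cons u z, Fintype.mem_piFinset.2 (Fin.cases (by simpa using hu)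
        fun i => by simpa using Fintype.mem_piFinset.1 hz i), by simp [Fin.sum_univ_succ]⟩

/-- **Every residue is a sum of boundedly many elements of a subgroup of size `p ^ δ`.** -/
theorem exists_sumset_eq_univ {δ : ℝ} (hδ : 0 < δ) : ∃ m₀ : ℕ, ∀ (p : ℕ) [Fact p.Prime]
    (H : Finset (ZMod p)), IsSubgroupSet H → (p : ℝ) ^ δ ≤ #H → ∀ m, m₀ ≤ m →
      ∀ b : ZMod p, ∃ z : Fin m → ZMod p, (∀ i, z i ∈ H) ∧ ∑ i, z i = b := by
  obtain ⟨ε, C, hε, hC, hsum⟩ := exists_sum_bound hδ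
  obtain ⟨m₁, hm₁⟩ := exists_nat_gt (2 / ε)
  rw [div_lt_iff₀ hε] at hm₁
  obtain ⟨P₀, hP₀⟩ := Filter.eventually_atTop.1 ((tendsto_rpow_atTop
    (half_pos hε)).eventually_gt_atTop C)
  refine ⟨max (2 * m₁) ⌈P₀⌉₊, fun p _ H hH hcard m hm b => ?_⟩
  have hp2 := (Fact.out : p.Prime).two_le
  have hp1 : (1 : ℝ) ≤ p := by exact_mod_cast (show 1 ≤ p by omega)
  have hp0 : (0 : ℝ) < p := by linarith
  have hH0 : (0 : ℝ) < #H := Nat.cast_pos.2 hH.card_pos
  rcases lt_or_ge (p : ℝ) P₀ with hsmall | hlarge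
  · have hH2 : 2 ≤ #H := by
      have h : (1 : ℝ) < #H := lt_of_lt_of_le
        (Real.one_lt_rpow (by exact_mod_cast (show 1 < p by omega)) hδ) hcard
      exact_mod_cast h
    have hmp : p ≤ m := by
      have : (p : ℝ) ≤ ⌈P₀⌉₊ := hsmall.le.trans (Nat.le_ceil _)
      exact (Nat.cast_le.1 this).trans ((le_max_right _ _).trans hm)
    have h := eq_univ_of_card _ (le_antisymm (card_le_univ _)
      (le_trans (by rw [ZMod.card]; exact le_min le_rfl (by omega)) (card_sumset_ge hH2 m)))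
    obtain ⟨z, hz, e⟩ := mem_image.1 (h.symm ▸ mem_univ b)
    exact ⟨z, Fintype.mem_piFinset.1 hz, e⟩
  by_contra hcon
  have hempty : (Fintype.piFinset fun _ : Fin m => H).filter (fun z => ∑ i, z i = b) = ∅ :=
    filter_eq_empty_iff.2 fun z hz e => hcon ⟨z, Fintype.mem_piFinset.1 hz, e⟩
  have h := card_mul_count H m b
  rw [hempty, card_empty, Nat.cast_zero, mul_zero, ← add_sum_erase _ _ (mem_univ (0 : ZMod p))] at h
  simp only [zero_mul, neg_zero, AddChar.map_zero_eq_one, sum_const, nsmul_eq_mul, mul_one] at h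
  have h1 : (#H : ℝ) ^ m ≤ p * (C * #H * (p : ℝ) ^ (-ε)) ^ m := by
    have h' := congrArg (‖·‖) (eq_neg_of_add_eq_zero_left h.symm)
    simp only [norm_neg, norm_pow, Complex.norm_natCast] at h'
    refine h'.le.trans ((norm_sum_le _ _).trans ((sum_le_card_nsmul _ _
      ((C * #H * (p : ℝ) ^ (-ε)) ^ m) fun a ha => ?_).trans ?_))
    · rw [norm_mul, norm_pow, AddChar.norm_apply, mul_one]
      exact pow_le_pow_left₀ (norm_nonneg _) (hsum p H hH hcard a (ne_of_mem_erase ha)) m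
    · rw [nsmul_eq_mul]
      refine mul_le_mul_of_nonneg_right (Nat.cast_le.2 ?_) (by positivity)
      exact (card_le_card (erase_subset _ _)).trans_eq (by simp)
  have h2 : 1 ≤ (p : ℝ) * (C * (p : ℝ) ^ (-ε)) ^ m := by
    refine le_of_mul_le_mul_left ?_ (pow_pos hH0 m)
    rw [mul_one]
    refine h1.trans (le_of_eq ?_)
    rw [mul_left_comm, ← mul_pow, mul_left_comm (#H : ℝ), mul_assoc]
  have h3 : C * (p : ℝ) ^ (-ε) < (p : ℝ) ^ (-(ε / 2)) := by
    calc C * (p : ℝ) ^ (-ε) < (p : ℝ) ^ (ε / 2) * (p : ℝ) ^ (-ε) :=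
          mul_lt_mul_of_pos_right (hP₀ p hlarge) (Real.rpow_pos_of_pos hp0 _)
      _ = _ := by rw [← Real.rpow_add hp0]; ring_nf
  have hm0 : m ≠ 0 := by
    rintro rfl
    have : m₁ = 0 := by
      have := (le_max_left _ _).trans hm
      omega
    rw [this, Nat.cast_zero, zero_mul] at hm₁
    linarith
  have h4 : (p : ℝ) * (C * (p : ℝ) ^ (-ε)) ^ m < 1 := by
    refine lt_of_lt_of_le (mul_lt_mul_of_pos_left (pow_lt_pow_left₀ h3 (by positivity) hm0) hp0) ?_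
    rw [← Real.rpow_natCast ((p : ℝ) ^ _), ← Real.rpow_mul hp0.le, mul_comm (p : ℝ),
      ← Real.rpow_add_one hp0.ne']
    refine Real.rpow_le_one_of_one_le_of_nonpos hp1 ?_
    have h5 : 2 * (m₁ : ℝ) ≤ m := by exact_mod_cast (le_max_left _ _).trans hm
    have := mul_le_mul_of_nonneg_left h5 hε.le
    linarith
  linarith

theorem stdAddChar_eq_eAdd (x : ZMod p) : ZMod.stdAddChar x = eAdd ((x.val : ℝ) / p) := by
  conv_lhs => rw [← ZMod.natCast_zmod_val x]
  rw [← Int.cast_natCast, ZMod.stdAddChar_coe, eAdd]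
  push_cast
  ring_nf

/-- **Equidistribution**: a subgroup of size `p ^ δ` has its share in every initial interval. -/
theorem exists_equidistribution {δ : ℝ} (hδ : 0 < δ) : ∃ ε C : ℝ, 0 < ε ∧ 1 ≤ C ∧
    ∀ (p : ℕ) [Fact p.Prime] (H : Finset (ZMod p)), IsSubgroupSet H → (p : ℝ) ^ δ ≤ #H →
      ∀ L ≤ p, |(#(H.filter fun h => h.val < L) : ℝ) - #H * L / p| ≤ C * #H * (p : ℝ) ^ (-ε) := by
  obtain ⟨ε, C, hε, hC, hsum⟩ := exists_sum_bound hδ
  refine ⟨ε / 2, C * (7 * (1 + 2 / ε)), half_pos hε, one_le_mul_of_one_le_of_one_le hC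
    (one_le_mul_of_one_le_of_one_le (by norm_num) (le_add_of_nonneg_right (by positivity))),
    fun p _ H hH hcard L hL => ?_⟩
  have hp2 := (Fact.out : p.Prime).two_le
  have hp1 : (1 : ℝ) ≤ p := by exact_mod_cast (show 1 ≤ p by omega)
  have hp0 : (0 : ℝ) < p := by linarith
  obtain ⟨D, hD⟩ : ∃ D : ZMod p → ℂ,
      D = fun a => ∑ n ∈ range L, ZMod.stdAddChar (-(a * (n : ZMod p))) := ⟨_, rfl⟩
  -- the count, by characters
  have hcount : (p : ℂ) * #(H.filter fun h => h.val < L) =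
      ∑ a, (∑ h ∈ H, ZMod.stdAddChar (a * h)) * D a := by
    rw [hD, card_filter, Nat.cast_sum, mul_sum]
    simp only [sum_mul_sum, ← AddChar.map_add_eq_mul, ← sub_eq_add_neg, ← mul_sub]
    rw [sum_comm]
    refine sum_congr rfl fun h _ => ?_
    rw [sum_comm]
    simp only [AddChar.sum_mulShift _ (ZMod.isPrimitive_stdAddChar p), ZMod.card, sub_eq_zero]
    split_ifs with hh
    · rw [← Nat.cast_sum, sum_eq_single h.val (fun n hn hne => if_neg fun e => hne ?_) fun h' =>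
        absurd (mem_range.2 hh) h', if_pos (ZMod.natCast_zmod_val h).symm]
      · simp
      · rw [e, ZMod.val_natCast_of_lt ((mem_range.1 hn).trans_le hL)]
    · rw [← Nat.cast_sum, sum_eq_zero fun n hn => if_neg fun e => hh ?_]
      · simp
      · rw [e, ZMod.val_natCast_of_lt ((mem_range.1 hn).trans_le hL)]
        exact mem_range.1 hn
  rw [← add_sum_erase _ _ (mem_univ (0 : ZMod p))] at hcount
  have h0 : (∑ h ∈ H, ZMod.stdAddChar (0 * h)) * D 0 = (#H : ℂ) * L := by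
    simp [hD]
  rw [h0] at hcount
  have hDb : ∀ a : ZMod p, ‖D a‖ ≤ clip (L : ℝ) ((a.val : ℝ) / p) := fun a => by
    have e : ∀ n : ℕ, ZMod.stdAddChar (-(a * (n : ZMod p))) = eAdd (n * -((a.val : ℝ) / p)) :=
      fun n => by
      rw [eAdd_nat_mul, ← conj_eAdd, ← stdAddChar_eq_eAdd, ← AddChar.map_neg_eq_conj,
        ← AddChar.map_nsmul_eq_pow, nsmul_eq_mul, mul_neg, mul_comm]
    have h := norm_geom_le (-((a.val : ℝ) / p)) 0 L
    rw [Nat.sub_zero, clip_neg] at h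
    refine le_trans (le_of_eq ?_) h
    rw [hD, show ∑ n ∈ Ioc 0 L, eAdd (n * -((a.val : ℝ) / p)) =
      eAdd (-((a.val : ℝ) / p)) * ∑ n ∈ range L, eAdd (n * -((a.val : ℝ) / p)) from ?_, norm_mul,
      norm_eAdd, one_mul]
    · simp only [e]
    rw [mul_sum]
    refine sum_nbij' (fun n => n - 1) (fun l => l + 1) (fun n hn => ?_) (fun l hl => ?_)
      (fun n hn => ?_) (fun l _ => by omega) fun n hn => ?_
    · rw [mem_Ioc] at hn; rw [mem_range]; omega
    · rw [mem_range] at hl; rw [mem_Ioc]; omega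
    · rw [mem_Ioc] at hn; omega
    · rw [mem_Ioc] at hn
      rw [← eAdd_add, Nat.cast_sub hn.1]
      push_cast
      ring_nf
  have hclip : ∑ a : ZMod p, clip (L : ℝ) ((a.val : ℝ) / p) ≤ 7 * p * (1 + Real.log p) := by
    have : NeZero p := ⟨by omega⟩
    refine le_trans (le_of_eq ?_) ((sum_clip_grid_le (M := p) 0 (Nat.cast_nonneg L)).trans ?_)
    · refine sum_nbij' (fun a => a.val) (fun n => (n : ZMod p))
        (fun a _ => mem_range.2 (ZMod.val_lt a)) (fun n _ => mem_univ _)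
        (fun a _ => ZMod.natCast_zmod_val a)
        (fun n hn => ZMod.val_natCast_of_lt (mem_range.1 hn)) fun a _ => by rw [sub_zero]
    · have hL' : (L : ℝ) ≤ p := Nat.cast_le.2 hL
      have hlog : 0 ≤ Real.log p := Real.log_nonneg hp1
      have := mul_le_mul_of_nonneg_left hlog hp0.le
      linarith
  have herr : ‖(p : ℂ) * #(H.filter fun h => h.val < L) - #H * L‖ ≤
      C * #H * (p : ℝ) ^ (-ε) * (7 * p * (1 + Real.log p)) := by
    rw [hcount, add_sub_cancel_left]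
    refine (norm_sum_le _ _).trans ((sum_le_sum fun a ha => ?_).trans
      ((mul_sum _ _ _).ge.trans (mul_le_mul_of_nonneg_left
        ((sum_le_sum_of_subset_of_nonneg (erase_subset _ _) fun a _ _ =>
          clip_nonneg (Nat.cast_nonneg L) _).trans hclip) (by positivity))))
    rw [norm_mul]
    exact mul_le_mul (hsum p H hH hcard a (ne_of_mem_erase ha)) (hDb a) (norm_nonneg _)
      (by positivity)
  have hlog : 1 + Real.log p ≤ (1 + 2 / ε) * (p : ℝ) ^ (ε / 2) := by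
    have h := Real.log_le_rpow_div hp0.le (half_pos hε)
    have h1 : (1 : ℝ) ≤ (p : ℝ) ^ (ε / 2) := Real.one_le_rpow hp1 (by linarith)
    have h2 : (p : ℝ) ^ (ε / 2) / (ε / 2) = 2 / ε * (p : ℝ) ^ (ε / 2) := by field_simp
    linarith
  refine le_of_mul_le_mul_left ?_ hp0
  rw [show (p : ℝ) * |(#(H.filter fun h => h.val < L) : ℝ) - #H * L / p| =
    ‖(p : ℂ) * #(H.filter fun h => h.val < L) - #H * L‖ by
      rw [← abs_of_pos hp0, ← abs_mul, abs_of_pos hp0, mul_sub, mul_div_cancel₀ _ hp0.ne',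
        ← Real.norm_eq_abs, ← Complex.norm_real]
      push_cast
      rfl]
  refine herr.trans ((mul_le_mul_of_nonneg_left (mul_le_mul_of_nonneg_left hlog (by positivity))
    (by positivity)).trans (le_of_eq ?_))
  rw [show -(ε / 2) = -ε + ε / 2 by ring, Real.rpow_add hp0]
  ring

end FA.BGK
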