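import Fermat.Agent.Korobov.Energy
import Mathlib.Algebra.Field.ZMod
import Mathlib.Analysis.SpecialFunctions.Pow.Real
import Mathlib.Combinatorics.Additive.PluenneckeRuzsa

/-!
# Expansion in prime fields

`ξ` is good for `A` when `A + ξ A` is at most `K` times as large as `A`. By the calculus of Ruzsa
the sums, differences and products of good elements are good for a power of `K`, by the argument of
Glibichuk and Konyagin finitely many such steps make half of `ZMod p` out of any `p ^ δ` elements,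
and half of the field is not good: so `p ^ η ≪ K ^ N` for `p ^ η ≤ #A ≤ p ^ (1 - η)`.
-/

set_option autoImplicit false

noncomputable section

namespace FA.BGK

open Finset
open scoped Pointwise

variable {p : ℕ} [Fact p.Prime]

/-- The dilate `ξ A`. -/
def dil (ξ : ZMod p) (A : Finset (ZMod p)) : Finset (ZMod p) := A.image fun x => ξ * x

theorem mem_dil {ξ x : ZMod p} {A : Finset (ZMod p)} : x ∈ dil ξ A ↔ ∃ a ∈ A, ξ * a = x :=
  mem_image

theorem mul_mem_dil {ξ a : ZMod p} {A : Finset (ZMod p)} (ha : a ∈ A) : ξ * a ∈ dil ξ A :=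
  mem_image_of_mem _ ha

theorem card_dil {ξ : ZMod p} (hξ : ξ ≠ 0) (A : Finset (ZMod p)) : #(dil ξ A) = #A :=
  card_image_of_injective _ (mul_right_injective₀ hξ)

theorem card_dil_le (ξ : ZMod p) (A : Finset (ZMod p)) : #(dil ξ A) ≤ #A := card_image_le

theorem dil_one (A : Finset (ZMod p)) : dil 1 A = A := by
  simp [dil]

theorem dil_add (ξ : ZMod p) (A B : Finset (ZMod p)) : dil ξ (A + B) = dil ξ A + dil ξ B :=
  image_add (AddMonoidHom.mulLeft ξ)

theorem dil_dil (ξ η : ZMod p) (A : Finset (ZMod p)) : dil ξ (dil η A) = dil (ξ * η) A := by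
  simp only [dil, image_image]
  exact image_congr fun x _ => (mul_assoc ξ η x).symm

/-- `A + ξ A` is at most `K` times as large as `A`. -/
def Good (A : Finset (ZMod p)) (K : ℝ) (ξ : ZMod p) : Prop := (#(A + dil ξ A) : ℝ) ≤ K * #A

theorem Good.mono {A : Finset (ZMod p)} {K L : ℝ} {ξ : ZMod p} (h : Good A K ξ) (hKL : K ≤ L) :
    Good A L ξ :=
  h.trans (mul_le_mul_of_nonneg_right hKL (Nat.cast_nonneg _))

/-- The loss of one operation. -/
def loss (K : ℝ) : ℝ := 27 * K ^ 3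

theorem le_loss {K : ℝ} (hK : 1 ≤ K) : K ≤ loss K := by
  rw [loss]
  nlinarith [one_le_pow₀ hK (n := 2)]

theorem one_le_loss {K : ℝ} (hK : 1 ≤ K) : 1 ≤ loss K := hK.trans (le_loss hK)

/-- **Ruzsa's calculus.** -/
theorem good_ops {A : Finset (ZMod p)} (hA : A.Nonempty) {K : ℝ} (hK : 1 ≤ K) (h1 : Good A K 1)
    {ξ η : ZMod p} (hξ : Good A K ξ) (hη : Good A K η) :
    Good A (loss K) (ξ + η) ∧ Good A (loss K) (ξ - η) ∧ Good A (loss K) (ξ * η) := by
  obtain ⟨B, hB⟩ : ∃ B, B = A ∪ dil ξ A ∪ dil η A := ⟨_, rfl⟩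
  have hA0 : (0 : ℝ) < #A := Nat.cast_pos.2 hA.card_pos
  have hAB : (#(A + B) : ℝ) ≤ 3 * K * #A := by
    have h : #(A + B) ≤ #(A + A) + #(A + dil ξ A) + #(A + dil η A) := by
      refine (card_le_card (t := (A + A) ∪ (A + dil ξ A) ∪ (A + dil η A)) ?_).trans
        ((card_union_le _ _).trans (Nat.add_le_add_right (card_union_le _ _) _))
      rw [hB, add_union, add_union]
    have h' : (#(A + B) : ℝ) ≤ #(A + A) + #(A + dil ξ A) + #(A + dil η A) := by exact_mod_cast h
    rw [Good, dil_one] at h1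
    rw [Good] at hξ hη
    linarith
  have hPR : ∀ m n : ℕ, m + n = 3 → (#(m • B - n • B) : ℝ) ≤ loss K * #A := fun m n hmn => by
    have h := (NNRat.cast_le (K := ℝ)).2
      (pluennecke_ruzsa_inequality_nsmul_sub_nsmul_add hA B m n)
    push_cast at h
    rw [hmn] at h
    refine h.trans (mul_le_mul_of_nonneg_right ?_ hA0.le)
    rw [loss, show 27 * K ^ 3 = (3 * K) ^ 3 by ring]
    refine pow_le_pow_left₀ (by positivity) ?_ 3
    rwa [div_le_iff₀ hA0]
  have hAs : A ⊆ B := hB ▸ subset_union_left.trans subset_union_left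
  have hξs : dil ξ A ⊆ B := hB ▸ subset_union_right.trans subset_union_left
  have hηs : dil η A ⊆ B := hB ▸ subset_union_right
  refine ⟨?_, ?_, ?_⟩
  · refine le_trans (Nat.cast_le.2 (card_le_card fun x hx => ?_)) (hPR 3 0 rfl)
    obtain ⟨a, ha, y, hy, rfl⟩ := mem_add.1 hx
    obtain ⟨b, hb, rfl⟩ := mem_dil.1 hy
    rw [zero_nsmul, sub_zero, succ_nsmul, two_nsmul, add_mul, ← add_assoc]
    exact add_mem_add (add_mem_add (hAs ha) (hξs (mul_mem_dil hb))) (hηs (mul_mem_dil hb))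
  · refine le_trans (Nat.cast_le.2 (card_le_card fun x hx => ?_)) (hPR 2 1 rfl)
    obtain ⟨a, ha, y, hy, rfl⟩ := mem_add.1 hx
    obtain ⟨b, hb, rfl⟩ := mem_dil.1 hy
    rw [one_nsmul, two_nsmul, sub_mul, ← add_sub_assoc]
    exact sub_mem_sub (add_mem_add (hAs ha) (hξs (mul_mem_dil hb))) (hηs (mul_mem_dil hb))
  · rw [Good]
    rcases eq_or_ne ξ 0 with rfl | hξ0
    · rw [zero_mul]
      refine le_trans ?_ (mul_le_mul_of_nonneg_right (one_le_loss hK) hA0.le)
      rw [one_mul, Nat.cast_le]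
      refine (card_add_le).trans ?_
      have h : #(dil (0 : ZMod p) A) ≤ 1 :=
        card_le_one.2 fun x hx y hy => by
          obtain ⟨a, -, rfl⟩ := mem_dil.1 hx
          obtain ⟨b, -, rfl⟩ := mem_dil.1 hy
          simp
      simpa using Nat.mul_le_mul_left #A h
    · have h := ruzsa_triangle_inequality_add_add_add A (dil ξ A) (dil (ξ * η) A)
      rw [card_dil hξ0, ← dil_dil, ← dil_add, card_dil hξ0] at h
      rw [← dil_dil]
      have h' : (#(A + dil ξ (dil η A)) : ℝ) * #A ≤ #(A + dil ξ A) * #(A + dil η A) := by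
        exact_mod_cast h
      refine le_of_mul_le_mul_right (h'.trans ((mul_le_mul hξ hη (Nat.cast_nonneg _)
        (by positivity)).trans ?_)) hA0
      have hKK : K * K ≤ loss K := by rw [loss]; nlinarith [one_le_pow₀ hK (n := 2)]
      have := mul_le_mul_of_nonneg_right hKK (mul_self_nonneg (#A : ℝ))
      linarith

/-- **The step of Glibichuk and Konyagin.** -/
def step (S : Finset (ZMod p)) : Finset (ZMod p) := (S - S) * S + ((S - S) + (S - S)) * S

theorem good_step {A S : Finset (ZMod p)} (hA : A.Nonempty) {K : ℝ} (hK : 1 ≤ K)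
    (h1 : Good A K 1) (hS : ∀ s ∈ S, Good A K s) :
    ∀ x ∈ step S, Good A (loss (loss (loss (loss K)))) x := by
  have k1 := one_le_loss hK
  have k2 := one_le_loss k1
  have k3 := one_le_loss k2
  have m1 : Good A (loss K) 1 := h1.mono (le_loss hK)
  have m2 : Good A (loss (loss K)) 1 := m1.mono (le_loss k1)
  have hd : ∀ x ∈ S - S, Good A (loss K) x := fun x hx => by
    obtain ⟨u, hu, v, hv, rfl⟩ := mem_sub.1 hx
    exact (good_ops hA hK h1 (hS u hu) (hS v hv)).2.1
  have hd2 : ∀ x ∈ (S - S) + (S - S), Good A (loss (loss K)) x := fun x hx => by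
    obtain ⟨u, hu, v, hv, rfl⟩ := mem_add.1 hx
    exact (good_ops hA k1 m1 (hd u hu) (hd v hv)).1
  intro x hx
  obtain ⟨u, hu, v, hv, rfl⟩ := mem_add.1 hx
  obtain ⟨a, ha, s, hs, rfl⟩ := mem_mul.1 hu
  obtain ⟨b, hb, t, ht, rfl⟩ := mem_mul.1 hv
  exact (good_ops hA k3 (m2.mono (le_loss k2))
    (good_ops hA k2 m2 ((hd a ha).mono (le_loss k1))
      ((hS s hs).mono ((le_loss hK).trans (le_loss k1)))).2.2
    (good_ops hA k2 m2 (hd2 b hb) ((hS t ht).mono ((le_loss hK).trans (le_loss k1)))).2.2).1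

/-- The solutions of `x + ξ y = x' + ξ y'` in `S`. -/
def dilEnergy (S : Finset (ZMod p)) (ξ : ZMod p) : ℕ :=
  Korobov.energy (S ×ˢ S) fun z => z.1 + ξ * z.2

theorem pow_four_le_dilEnergy (S : Finset (ZMod p)) (ξ : ZMod p) :
    #S ^ 4 ≤ #(S + dil ξ S) * dilEnergy S ξ := by
  have h := Korobov.sq_card_le_card_image_mul_energy (S ×ˢ S) fun z => z.1 + ξ * z.2
  rw [card_product, ← sq, ← pow_mul] at h
  refine h.trans (Nat.mul_le_mul_right _ (card_le_card fun x hx => ?_))
  obtain ⟨z, hz, rfl⟩ := mem_image.1 hx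
  exact add_mem_add (mem_product.1 hz).1 (mul_mem_dil (mem_product.1 hz).2)

theorem sum_dilEnergy_le (S T : Finset (ZMod p)) :
    ∑ ξ ∈ T, dilEnergy S ξ ≤ #T * #S ^ 2 + #S ^ 4 := by
  simp only [dilEnergy, Korobov.energy, card_filter]
  rw [sum_comm]
  calc ∑ w ∈ (S ×ˢ S) ×ˢ (S ×ˢ S), ∑ ξ ∈ T,
        (if w.1.1 + ξ * w.1.2 = w.2.1 + ξ * w.2.2 then 1 else 0)
      ≤ ∑ w ∈ (S ×ˢ S) ×ˢ (S ×ˢ S), ((if w.1 = w.2 then #T else 0) + 1) := by
        refine sum_le_sum fun w _ => ?_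
        rw [← card_filter]
        split_ifs with h
        · exact (card_filter_le _ _).trans (Nat.le_succ _)
        · rw [zero_add, card_le_one]
          intro ξ hξ ζ hζ
          rw [mem_filter] at hξ hζ
          have hne : w.1.2 - w.2.2 ≠ 0 := fun e => by
            have e' := sub_eq_zero.1 e
            refine h (Prod.ext ?_ e')
            linear_combination hξ.2 - ξ * e'
          refine sub_eq_zero.1 ((mul_eq_zero.1 ?_).resolve_right hne)
          linear_combination hξ.2 - hζ.2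
    _ = _ := by
        rw [sum_add_distrib, sum_const, smul_eq_mul, mul_one, card_product (S ×ˢ S), sum_product]
        congr 1
        · rw [sum_congr rfl fun z hz => by rw [sum_ite_eq, if_pos hz], sum_const, smul_eq_mul,
            card_product, sq, mul_comm]
        · rw [card_product]
          ring

theorem exists_succ_notMem {R : Finset (ZMod p)} (h0 : (0 : ZMod p) ∈ R) (hR : R ≠ univ) :
    ∃ a ∈ R, a + 1 ∉ R := by
  by_contra h
  push Not at h
  refine hR (eq_univ_of_forall fun x => ?_)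
  have hn : ∀ n : ℕ, ((n : ℕ) : ZMod p) ∈ R := fun n => by
    induction n with
    | zero => simpa using h0
    | succ n ih => simpa using h _ ih
  simpa using hn x.val

/-- **The lemma of Glibichuk and Konyagin.** -/
theorem card_step_ge (S : Finset (ZMod p)) (hS : 2 ≤ #S) : min p (#S ^ 2) ≤ 2 * #(step S) := by
  have hsub : ∀ c ∈ S - S, ∀ d ∈ S - S, ∀ ζ : ZMod p,
      ζ * d = c + d ∨ ζ * d = c → dil d (S + dil ζ S) ⊆ step S := by
    intro c hc d hd ζ hζ x hx
    obtain ⟨y, hy, rfl⟩ := mem_dil.1 hx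
    obtain ⟨u, hu, v, hv, rfl⟩ := mem_add.1 hy
    obtain ⟨w, hw, rfl⟩ := mem_dil.1 hv
    rw [mul_add, ← mul_assoc, mul_comm d ζ]
    refine add_mem_add (mul_mem_mul hd hu) (mul_mem_mul ?_ hw)
    rcases hζ with e | e
    · rw [e]; exact add_mem_add hc hd
    · rw [e, ← add_zero c]
      obtain ⟨s, hs⟩ := card_pos.1 (show 0 < #S by omega)
      exact add_mem_add hc (mem_sub.2 ⟨s, hs, s, hs, sub_self s⟩)
  obtain ⟨u, hu, v, hv, huv⟩ := one_lt_card.1 (show 1 < #S by omega)
  obtain ⟨R, hR⟩ : ∃ R, R = (S - S) / (S - S) := ⟨_, rfl⟩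
  have h0 : (0 : ZMod p) ∈ R := hR ▸ mem_div.2
    ⟨0, mem_sub.2 ⟨u, hu, u, hu, sub_self u⟩, 0, mem_sub.2 ⟨u, hu, u, hu, sub_self u⟩,
      zero_div _⟩
  rcases ne_or_eq R univ with hne | huniv
  · obtain ⟨a, ha, ha1⟩ := exists_succ_notMem h0 hne
    obtain ⟨c, hc, d, hd, rfl⟩ := mem_div.1 (hR ▸ ha)
    have hd0 : d ≠ 0 := fun e => ha1 (by
      rw [e, div_zero, zero_add, hR]
      exact mem_div.2 ⟨u - v, sub_mem_sub hu hv, u - v, sub_mem_sub hu hv,
        div_self (sub_ne_zero.2 huv)⟩)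
    have hinj : #(S ×ˢ S) ≤ #(S + dil (c / d + 1) S) := by
      refine card_le_card_of_injOn (fun z => z.1 + (c / d + 1) * z.2)
        (fun z hz => add_mem_add (mem_product.1 hz).1 (mul_mem_dil (mem_product.1 hz).2)) ?_
      intro z hz w hw e
      rw [mem_coe, mem_product] at hz hw
      simp only at e
      have he : z.2 = w.2 := by
        by_contra hne'
        refine ha1 (hR ▸ mem_div.2 ⟨w.1 - z.1, sub_mem_sub hw.1 hz.1, z.2 - w.2,
          sub_mem_sub hz.2 hw.2, ?_⟩)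
        rw [div_eq_iff (sub_ne_zero.2 hne')]
        linear_combination -e
      rw [he] at e
      exact Prod.ext (add_right_cancel e) he
    have h := card_le_card (hsub c hc d hd (c / d + 1)
      (Or.inl (by rw [add_mul, div_mul_cancel₀ c hd0, one_mul])))
    rw [card_dil hd0] at h
    rw [card_product, ← sq] at hinj
    omega
  · obtain ⟨T, hT⟩ : ∃ T, T = (univ : Finset (ZMod p)).erase 0 := ⟨_, rfl⟩
    have hTc : #T + 1 = p := by
      rw [hT, card_erase_add_one (mem_univ _), card_univ, ZMod.card]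
    have hT0 : T.Nonempty := ⟨1, hT ▸ mem_erase.2 ⟨one_ne_zero, mem_univ _⟩⟩
    obtain ⟨ξ, hξ, hξle⟩ : ∃ ξ ∈ T, #T * dilEnergy S ξ ≤ #T * #S ^ 2 + #S ^ 4 := by
      refine exists_le_of_sum_le hT0 ?_
      rw [← mul_sum, sum_const, smul_eq_mul]
      exact Nat.mul_le_mul_left _ (sum_dilEnergy_le S T)
    have hξ0 : ξ ≠ 0 := ne_of_mem_erase (hT ▸ hξ)
    obtain ⟨c, hc, d, hd, hcd⟩ := mem_div.1 (hR ▸ huniv.symm ▸ mem_univ ξ)
    have hd0 : d ≠ 0 := fun e => hξ0 (by rw [← hcd, e, div_zero])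
    have h := card_le_card (hsub c hc d hd ξ
      (Or.inr (by rw [← hcd, div_mul_cancel₀ c hd0])))
    rw [card_dil hd0] at h
    have h4 := pow_four_le_dilEnergy S ξ
    refine le_trans ?_ (Nat.mul_le_mul_left 2 h)
    obtain ⟨n, hn⟩ : ∃ n, n = #S ^ 2 := ⟨_, rfl⟩
    obtain ⟨X, hX⟩ : ∃ X, X = #(S + dil ξ S) := ⟨_, rfl⟩
    rw [show #S ^ 4 = n * n by rw [hn]; ring, ← hn] at hξle
    rw [show #S ^ 4 = n * n by rw [hn]; ring, ← hX] at h4
    rw [← hn, ← hX]
    have hn0 : 0 < n := hn ▸ pow_pos (by omega) 2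
    -- `n² #T ≤ X (n #T + n²)`
    have h5 : n * #T ≤ X * (#T + n) := by
      refine Nat.le_of_mul_le_mul_left ?_ hn0
      calc n * (n * #T) = #T * (n * n) := by ring
        _ ≤ #T * (X * dilEnergy S ξ) := Nat.mul_le_mul_left _ h4
        _ = X * (#T * dilEnergy S ξ) := by ring
        _ ≤ X * (#T * n + n * n) := Nat.mul_le_mul_left _ hξle
        _ = n * (X * (#T + n)) := by ring
    by_contra hlt
    rw [not_le, lt_min_iff] at hlt
    nlinarith [hlt.1, hlt.2]

theorem exists_loss_iterate (n : ℕ) : ∃ N : ℕ, 1 ≤ N ∧ ∀ K : ℝ, 1 ≤ K →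
    (fun K => loss (loss (loss (loss K))))^[n] K ≤ (27 * K) ^ N ∧
      K ≤ (fun K => loss (loss (loss (loss K))))^[n] K := by
  induction n with
  | zero => exact ⟨1, le_rfl, fun K hK => ⟨by simp; linarith, le_rfl⟩⟩
  | succ n ih =>
    obtain ⟨N, hN, h⟩ := ih
    refine ⟨81 * (N + 1), by omega, fun K hK => ?_⟩
    rw [Function.iterate_succ_apply']
    obtain ⟨h1, h2⟩ := h K hK
    obtain ⟨L, hL⟩ : ∃ L, L = (fun K => loss (loss (loss (loss K))))^[n] K := ⟨_, rfl⟩
    rw [← hL] at h1 h2 ⊢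
    have hL1 := hK.trans h2
    refine ⟨?_, h2.trans ((le_loss hL1).trans ((le_loss (one_le_loss hL1)).trans
      ((le_loss (one_le_loss (one_le_loss hL1))).trans
        (le_loss (one_le_loss (one_le_loss (one_le_loss hL1)))))))⟩
    calc loss (loss (loss (loss L))) = 27 ^ 40 * L ^ 81 := by simp only [loss]; ring
      _ ≤ (27 * K) ^ 81 * ((27 * K) ^ N) ^ 81 := by
          refine mul_le_mul ((pow_le_pow_right₀ (by norm_num) (by norm_num : 40 ≤ 81)).trans
            (pow_le_pow_left₀ (by norm_num) (by linarith) 81))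
            (pow_le_pow_left₀ (by linarith) h1 81) (by positivity) (by positivity)
      _ = _ := by rw [← pow_mul, ← pow_add]; ring_nf

theorem iterate_step_card {S : Finset (ZMod p)} {x : ℝ} (hx : 1 ≤ x) (hS : 2 * x ≤ #S) (n : ℕ) :
    min ((p : ℝ) / 2) (2 * x ^ 2 ^ n) ≤ #(step^[n] S) := by
  induction n with
  | zero => simpa using Or.inr hS
  | succ n ih =>
    rw [Function.iterate_succ_apply']
    obtain ⟨T, hT⟩ : ∃ T, T = step^[n] S := ⟨_, rfl⟩
    rw [← hT] at ih ⊢
    have hp : 2 ≤ p := (Fact.out : p.Prime).two_le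
    have hp' : (2 : ℝ) ≤ p := by exact_mod_cast hp
    have hm : 1 < #T ∨ p ≤ 3 := by
      by_contra hcon
      push Not at hcon
      have h1 : (#T : ℝ) ≤ 1 := by exact_mod_cast hcon.1
      have h2 : (4 : ℝ) ≤ p := by exact_mod_cast hcon.2
      have h3 : (1 : ℝ) ≤ x ^ 2 ^ n := one_le_pow₀ hx
      rcases min_le_iff.1 (ih.trans h1) with h | h <;> linarith
    rcases hm with hm | hm
    · have h := card_step_ge T hm
      have h' : min (p : ℝ) ((#T : ℝ) ^ 2) ≤ 2 * #(step T) := by exact_mod_cast h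
      rcases min_le_iff.1 h' with h' | h'
      · exact (min_le_left _ _).trans (by linarith)
      rcases min_le_iff.1 ih with hT' | hT'
      · refine (min_le_left _ _).trans ?_
        have : 2 * (#T : ℝ) ≤ (#T : ℝ) ^ 2 := by
          rw [sq]
          exact mul_le_mul_of_nonneg_right (by exact_mod_cast hm) (Nat.cast_nonneg _)
        linarith
      · refine (min_le_right _ _).trans ?_
        have := pow_le_pow_left₀ (by positivity) hT' 2
        rw [pow_succ 2 n, pow_mul]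
        linarith
    · obtain ⟨u, hu⟩ : T.Nonempty := by
        refine card_pos.1 (Nat.cast_pos.1 (lt_of_lt_of_le ?_ ih))
        exact lt_min (by linarith) (by positivity)
      have h0 : (0 : ZMod p) ∈ T - T := mem_sub.2 ⟨u, hu, u, hu, sub_self u⟩
      have hne : (step T).Nonempty :=
        ⟨_, add_mem_add (mul_mem_mul h0 hu) (mul_mem_mul (add_mem_add h0 h0) hu)⟩
      have h3 : (p : ℝ) ≤ 3 := by exact_mod_cast hm
      refine (min_le_left _ _).trans ?_
      rcases Nat.lt_or_ge 1 #(step T) with h | h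
      · have : (2 : ℝ) ≤ #(step T) := by exact_mod_cast h
        linarith
      · rcases Nat.lt_or_ge p 3 with h' | h'
        · have : (p : ℝ) ≤ 2 := by exact_mod_cast (show p ≤ 2 by omega)
          have : (1 : ℝ) ≤ #(step T) := by exact_mod_cast hne.card_pos
          linarith
        · have hT2 : 2 ≤ #T := by
            have : ((p : ℝ)) = 3 := le_antisymm h3 (by exact_mod_cast h')
            have h1 : (1 : ℝ) ≤ x ^ 2 ^ n := one_le_pow₀ hx
            rcases min_le_iff.1 ih with hh | hh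
            · by_contra hc
              have : (#T : ℝ) ≤ 1 := by exact_mod_cast (show #T ≤ 1 by omega)
              linarith
            · have : (2 : ℝ) ≤ #T := by linarith
              exact_mod_cast this
          have := card_step_ge T hT2
          have : 2 * 2 ≤ #T ^ 2 := by rw [sq]; exact Nat.mul_le_mul hT2 hT2
          omega

/-- **Expansion in prime fields**: the good elements for `A` include at most boundedly many powers
of `p`. -/
theorem exists_good_bound {δ η : ℝ} (hδ : 0 < δ) (hη : 0 < η) : ∃ (N : ℕ) (C : ℝ),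
    1 ≤ N ∧ 1 ≤ C ∧ ∀ (p : ℕ) [Fact p.Prime] (A B : Finset (ZMod p)) (K : ℝ), 1 ≤ K →
      (p : ℝ) ^ η ≤ #A → (#A : ℝ) ≤ (p : ℝ) ^ (1 - η) → (p : ℝ) ^ δ ≤ #B → Good A K 1 →
      (∀ ξ ∈ B, Good A K ξ) → (p : ℝ) ^ η ≤ C * K ^ N := by
  obtain ⟨n, hn⟩ := exists_nat_gt (2 / δ)
  obtain ⟨N, hN, hloss⟩ := exists_loss_iterate n
  refine ⟨N, max (4 ^ (η / δ)) (3 * 27 ^ N), hN, le_max_of_le_right ?_,
    fun p _ A B K hK hA1 hA2 hB h1 hgood => ?_⟩
  · exact le_trans (by norm_num) (le_mul_of_one_le_right (by norm_num : (0 : ℝ) ≤ 3)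
      (one_le_pow₀ (by norm_num)))
  have hp : (1 : ℝ) ≤ p := by exact_mod_cast (Fact.out : p.Prime).one_le
  have hp0 : (0 : ℝ) < p := by linarith
  have hKN : (1 : ℝ) ≤ K ^ N := one_le_pow₀ hK
  rcases lt_or_ge ((p : ℝ) ^ δ) 4 with hsmall | hbig
  · refine le_trans ?_ (mul_le_mul_of_nonneg_right (le_max_left _ _) (by positivity))
    refine le_trans ?_ (le_mul_of_one_le_right (by positivity) hKN)
    calc (p : ℝ) ^ η = ((p : ℝ) ^ δ) ^ (η / δ) := by
          rw [← Real.rpow_mul hp0.le, mul_div_cancel₀ η hδ.ne']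
      _ ≤ _ := Real.rpow_le_rpow (by positivity) hsmall.le (by positivity)
  have hA0 : (0 : ℝ) < #A := lt_of_lt_of_le (by positivity) hA1
  have hAne : A.Nonempty := card_pos.1 (Nat.cast_pos.1 hA0)
  obtain ⟨g, hg⟩ : ∃ g : ℝ → ℝ, g = fun K => loss (loss (loss (loss K))) := ⟨_, rfl⟩
  rw [← hg] at hloss
  have hiter : ∀ m, 1 ≤ g^[m] K ∧ K ≤ g^[m] K ∧
      ∀ ξ ∈ step^[m] B, Good A (g^[m] K) ξ := fun m => by
    induction m with
    | zero => exact ⟨hK, le_rfl, hgood⟩
    | succ m ih =>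
      obtain ⟨i1, i2, i3⟩ := ih
      have hge : g^[m] K ≤ g^[m + 1] K := by
        rw [Function.iterate_succ_apply', hg]
        rw [hg] at i1
        exact (le_loss i1).trans ((le_loss (one_le_loss i1)).trans
          ((le_loss (one_le_loss (one_le_loss i1))).trans
            (le_loss (one_le_loss (one_le_loss (one_le_loss i1))))))
      refine ⟨i1.trans hge, i2.trans hge, ?_⟩
      rw [Function.iterate_succ_apply' step, Function.iterate_succ_apply' g, hg]
      exact good_step hAne (by rw [← hg]; exact i1) (h1.mono (by rw [← hg]; exact i2))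
        (by rw [← hg]; exact i3)
  obtain ⟨hL1, -, hL⟩ := hiter n
  obtain ⟨L, hLdef⟩ : ∃ L, L = g^[n] K := ⟨_, rfl⟩
  rw [← hLdef] at hL1 hL
  obtain ⟨T, hT⟩ : ∃ T, T = step^[n] B := ⟨_, rfl⟩
  rw [← hT] at hL
  have hTcard : (p : ℝ) / 2 ≤ #T := by
    have h := iterate_step_card (S := B) (x := (p : ℝ) ^ δ / 2) (by linarith) (by linarith) n
    rw [← hT] at h
    refine le_trans (le_min le_rfl ?_) h
    have h2 : (p : ℝ) ^ (δ / 2) ≤ (p : ℝ) ^ δ / 2 := by
      have e : (p : ℝ) ^ δ = (p : ℝ) ^ (δ / 2) * (p : ℝ) ^ (δ / 2) := by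
        rw [← Real.rpow_add hp0]; ring_nf
      have : (2 : ℝ) ≤ (p : ℝ) ^ (δ / 2) := by
        nlinarith [Real.rpow_nonneg hp0.le (δ / 2)]
      nlinarith
    have h3 : (p : ℝ) ≤ ((p : ℝ) ^ δ / 2) ^ 2 ^ n := by
      refine le_trans ?_ (pow_le_pow_left₀ (by positivity) h2 _)
      rw [← Real.rpow_natCast ((p : ℝ) ^ _), ← Real.rpow_mul hp0.le]
      refine Real.self_le_rpow_of_one_le hp ?_
      have h4 : (n : ℝ) ≤ ((2 ^ n : ℕ) : ℝ) := by exact_mod_cast Nat.lt_two_pow_self.le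
      rw [div_lt_iff₀ hδ] at hn
      nlinarith
    linarith
  have hsum : (#T : ℝ) * ((#A : ℝ) ^ 3 / L) ≤ #T * (#A : ℝ) ^ 2 + (#A : ℝ) ^ 4 := by
    refine le_trans ?_
      (((Nat.cast_le (α := ℝ)).2 (sum_dilEnergy_le A T)).trans_eq (by push_cast; rfl))
    rw [Nat.cast_sum, ← nsmul_eq_mul]
    refine card_nsmul_le_sum _ _ _ fun ξ hξ => ?_
    rw [div_le_iff₀ (by linarith)]
    refine le_of_mul_le_mul_left ?_ hA0
    calc (#A : ℝ) * (#A : ℝ) ^ 3 = ((#A ^ 4 : ℕ) : ℝ) := by push_cast; ring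
      _ ≤ (#(A + dil ξ A) : ℝ) * dilEnergy A ξ := by exact_mod_cast pow_four_le_dilEnergy A ξ
      _ ≤ L * #A * dilEnergy A ξ := mul_le_mul_of_nonneg_right (hL ξ hξ) (Nat.cast_nonneg _)
      _ = _ := by ring
  have hkey : (p : ℝ) ^ η ≤ 3 * L := by
    have hT0 : (0 : ℝ) < #T := lt_of_lt_of_le (by linarith) hTcard
    have h5 : (#A : ℝ) / L ≤ 1 + (#A : ℝ) ^ 2 * 2 / p := by
      have h6 : (#A : ℝ) ^ 4 ≤ #T * ((#A : ℝ) ^ 4 * 2 / p) := by
        rw [mul_div_assoc']
        rw [le_div_iff₀ hp0]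
        nlinarith [pow_pos hA0 4]
      have h7 : (#T : ℝ) * ((#A : ℝ) ^ 2 * (#A / L)) ≤
          #T * ((#A : ℝ) ^ 2 * (1 + (#A : ℝ) ^ 2 * 2 / p)) := by
        calc (#T : ℝ) * ((#A : ℝ) ^ 2 * (#A / L)) = #T * ((#A : ℝ) ^ 3 / L) := by ring
          _ ≤ #T * (#A : ℝ) ^ 2 + (#A : ℝ) ^ 4 := hsum
          _ ≤ #T * (#A : ℝ) ^ 2 + #T * ((#A : ℝ) ^ 4 * 2 / p) := by linarith
          _ = _ := by ring
      exact le_of_mul_le_mul_left (le_of_mul_le_mul_left h7 hT0) (by positivity)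
    have h8 : (#A : ℝ) * (p : ℝ) ^ η ≤ p := by
      refine (mul_le_mul_of_nonneg_right hA2 (by positivity)).trans (le_of_eq ?_)
      rw [← Real.rpow_add hp0]; simp
    rw [div_le_iff₀ (by linarith)] at h5
    refine le_of_mul_le_mul_left ?_ hA0
    calc (#A : ℝ) * (p : ℝ) ^ η
        ≤ (1 + (#A : ℝ) ^ 2 * 2 / p) * L * (p : ℝ) ^ η :=
          mul_le_mul_of_nonneg_right h5 (by positivity)
      _ = L * ((p : ℝ) ^ η + 2 * #A * ((#A : ℝ) * (p : ℝ) ^ η) / p) := by ring
      _ ≤ L * (#A + 2 * #A * p / p) := by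
          refine mul_le_mul_of_nonneg_left (add_le_add hA1 ?_) (by linarith)
          gcongr
      _ = _ := by field_simp; ring
  refine hkey.trans ((mul_le_mul_of_nonneg_left (hLdef ▸ (hloss K hK).1) (by norm_num)).trans ?_)
  rw [mul_pow, ← mul_assoc]
  exact mul_le_mul_of_nonneg_right (le_max_right _ _) (by positivity)

end FA.BGK
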