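import Fermat.Agent.BalogSzemerediGowers.Main
import Fermat.Agent.BGK.Growth
import Mathlib.Analysis.SpecialFunctions.Log.Base
import Mathlib.Analysis.SpecialFunctions.Pow.Asymptotics
import Mathlib.Analysis.Complex.ExponentialBounds

/-!
# Flattening

The correlation of a density invariant under a subgroup `H` has much smaller `L²` norm, unless
that norm is already below `p ^ (-1 + η)`: a level set of large energy has, by the theorem of Balog,
Szemerédi and Gowers, a part of small doubling for which many elements of `H` are good, against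
the expansion in prime fields.
-/

set_option autoImplicit false

noncomputable section

namespace FA.BGK

open Finset
open scoped Pointwise

variable {p : ℕ} [Fact p.Prime]

/-- The elements of a subgroup of `(ZMod p)ˣ`, as a set of residues. -/
structure IsSubgroupSet (H : Finset (ZMod p)) : Prop where
  one_mem : (1 : ZMod p) ∈ H
  zero_notMem : (0 : ZMod p) ∉ H
  mul_mem : ∀ {a b : ZMod p}, a ∈ H → b ∈ H → a * b ∈ H

theorem IsSubgroupSet.ne_zero {H : Finset (ZMod p)} (hH : IsSubgroupSet H) {h : ZMod p}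
    (hh : h ∈ H) : h ≠ 0 :=
  fun e => hH.zero_notMem (e ▸ hh)

theorem IsSubgroupSet.card_pos {H : Finset (ZMod p)} (hH : IsSubgroupSet H) : 0 < #H :=
  Finset.card_pos.2 ⟨1, hH.one_mem⟩

theorem IsSubgroupSet.dil_eq {H : Finset (ZMod p)} (hH : IsSubgroupSet H) {h : ZMod p}
    (hh : h ∈ H) : dil h H = H := by
  refine eq_of_subset_of_card_le (fun x hx => ?_) (card_dil (hH.ne_zero hh) H).ge
  obtain ⟨a, ha, rfl⟩ := mem_dil.1 hx
  exact hH.mul_mem hh ha

theorem IsSubgroupSet.inv_mem {H : Finset (ZMod p)} (hH : IsSubgroupSet H) {h : ZMod p}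
    (hh : h ∈ H) : h⁻¹ ∈ H := by
  obtain ⟨a, ha, he⟩ := mem_dil.1 ((hH.dil_eq hh).symm ▸ hH.one_mem)
  rwa [inv_eq_of_mul_eq_one_right he]

/-- The correlation `x ↦ ∑ y, f (x + y) g y`. -/
def corr (f g : ZMod p → ℝ) (x : ZMod p) : ℝ := ∑ y, f (x + y) * g y

/-- The square of the `L²` norm. -/
def sqNorm (f : ZMod p → ℝ) : ℝ := ∑ x, f x ^ 2

/-- A probability density invariant under `H` and bounded by `1 / #H`. -/
structure IsDensity (H : Finset (ZMod p)) (f : ZMod p → ℝ) : Prop where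
  nonneg : ∀ x, 0 ≤ f x
  sum_eq : ∑ x, f x = 1
  inv : ∀ h ∈ H, ∀ x, f (h * x) = f x
  le : ∀ x, f x ≤ 1 / #H

theorem IsDensity.le_one {H : Finset (ZMod p)} {f : ZMod p → ℝ} (hf : IsDensity H f) (x : ZMod p) :
    f x ≤ 1 :=
  hf.sum_eq ▸ single_le_sum (fun y _ => hf.nonneg y) (mem_univ x)

theorem sum_shift (f : ZMod p → ℝ) (y : ZMod p) : ∑ x, f (x + y) = ∑ x, f x :=
  Equiv.sum_comp (Equiv.addRight y) f

theorem IsDensity.corr_self {H : Finset (ZMod p)} (hH : IsSubgroupSet H) {f : ZMod p → ℝ}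
    (hf : IsDensity H f) : IsDensity H (corr f f) where
  nonneg x := sum_nonneg fun y _ => mul_nonneg (hf.nonneg _) (hf.nonneg _)
  sum_eq := by
    simp only [corr]
    rw [sum_comm]
    simp only [← sum_mul, sum_shift, hf.sum_eq, one_mul]
  inv h hh x := by
    simp only [corr]
    refine (Equiv.sum_comp (Equiv.mulLeft₀ h (hH.ne_zero hh))
      (fun y => f (h * x + y) * f y)).symm.trans (sum_congr rfl fun y _ => ?_)
    show f (h * x + h * y) * f (h * y) = _
    rw [← mul_add, hf.inv h hh, hf.inv h hh]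
  le x := by
    refine (sum_le_sum fun y _ => mul_le_mul_of_nonneg_right (hf.le _) (hf.nonneg y)).trans ?_
    rw [← mul_sum, hf.sum_eq, mul_one]

theorem sqNorm_nonneg (f : ZMod p → ℝ) : 0 ≤ sqNorm f := sum_nonneg fun _ _ => sq_nonneg _

theorem one_le_card_mul_sqNorm {H : Finset (ZMod p)} {f : ZMod p → ℝ} (hf : IsDensity H f) :
    1 ≤ (p : ℝ) * sqNorm f := by
  have h := sq_sum_le_card_mul_sum_sq (s := (univ : Finset (ZMod p))) (f := f)
  rwa [hf.sum_eq, one_pow, card_univ, ZMod.card] at h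

theorem sqNorm_corr_le {H : Finset (ZMod p)} {f : ZMod p → ℝ} (hf : IsDensity H f) :
    sqNorm (corr f f) ≤ sqNorm f := by
  simp only [sqNorm, corr, sq, sum_mul_sum]
  rw [sum_comm]
  refine (sum_le_sum (g := fun y => f y * ∑ x, f x * f x) fun y _ => ?_).trans (le_of_eq ?_)
  · rw [sum_comm, ← one_mul (∑ x, f x * f x), ← hf.sum_eq, sum_mul, mul_sum]
    refine sum_le_sum fun z _ => ?_
    calc ∑ x, f (x + y) * f y * (f (x + z) * f z)
        = f y * (f z * ∑ x, f (x + y) * f (x + z)) := by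
          simp only [mul_sum]
          exact sum_congr rfl fun x _ => by ring
      _ ≤ _ := by
          refine mul_le_mul_of_nonneg_left (mul_le_mul_of_nonneg_left ?_ (hf.nonneg z))
            (hf.nonneg y)
          have e : ∀ w, ∑ x, f (x + w) * f (x + w) = ∑ x, f x * f x := fun w =>
            sum_shift (fun x => f x * f x) w
          have h := sum_le_sum (s := univ) fun x _ => two_mul_le_add_sq (f (x + y)) (f (x + z))
          simp only [mul_assoc, ← mul_sum, sum_add_distrib, sq, e] at h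
          linarith
  · rw [← sum_mul, hf.sum_eq, one_mul]

/-- The points where `f` is about `2 ^ (-j)`. -/
def level (f : ZMod p → ℝ) (j : ℕ) : Finset (ZMod p) :=
  univ.filter fun x => (1 / 2 : ℝ) ^ (j + 1) < f x ∧ f x ≤ (1 / 2 : ℝ) ^ j

theorem le_sum_level {f : ZMod p → ℝ} {x : ZMod p} (hx : f x ≤ 1) (L : ℕ) :
    f x ≤ ∑ j ∈ range L, (if x ∈ level f j then (1 / 2 : ℝ) ^ j else 0) + (1 / 2 : ℝ) ^ L := by
  induction L with
  | zero => simpa using hx
  | succ L ih =>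
    rw [sum_range_succ]
    have hnn : 0 ≤ ∑ j ∈ range L, (if x ∈ level f j then (1 / 2 : ℝ) ^ j else 0) :=
      sum_nonneg fun j _ => by positivity
    by_cases h : f x ≤ (1 / 2 : ℝ) ^ (L + 1)
    · have : 0 ≤ (if x ∈ level f L then (1 / 2 : ℝ) ^ L else 0) := by positivity
      linarith
    by_cases hL : f x ≤ (1 / 2 : ℝ) ^ L
    · rw [if_pos (show x ∈ level f L from mem_filter.2 ⟨mem_univ _, not_le.1 h, hL⟩)]
      have : 0 < (1 / 2 : ℝ) ^ (L + 1) := by positivity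
      linarith
    · rw [if_neg fun hm => hL (mem_filter.1 hm).2.2]
      -- then `x` lies in an earlier level
      have hj : ∀ m ≤ L, ¬f x ≤ (1 / 2 : ℝ) ^ m →
          f x ≤ ∑ j ∈ range m, (if x ∈ level f j then (1 / 2 : ℝ) ^ j else 0) := by
        intro m
        induction m with
        | zero => intro _ h; exact absurd (by simpa using hx) h
        | succ m ihm =>
          intro hm h'
          rw [sum_range_succ]
          have hs : 0 ≤ ∑ j ∈ range m, (if x ∈ level f j then (1 / 2 : ℝ) ^ j else 0) :=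
            sum_nonneg fun j _ => by positivity
          by_cases hm' : f x ≤ (1 / 2 : ℝ) ^ m
          · rw [if_pos (show x ∈ level f m from mem_filter.2 ⟨mem_univ _, not_le.1 h', hm'⟩)]
            linarith
          · have : 0 ≤ (if x ∈ level f m then (1 / 2 : ℝ) ^ m else 0) := by positivity
            linarith [ihm (by omega) hm']
      have : 0 < (1 / 2 : ℝ) ^ (L + 1) := by positivity
      linarith [hj L le_rfl hL]

theorem level_card_le {H : Finset (ZMod p)} {f : ZMod p → ℝ} (hf : IsDensity H f) (j : ℕ) :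
    (1 / 2 : ℝ) ^ j * #(level f j) ≤ 2 ∧
      ((1 / 2 : ℝ) ^ j) ^ 2 * #(level f j) ≤ 4 * sqNorm f := by
  obtain ⟨w, hw⟩ : ∃ w, w = (1 / 2 : ℝ) ^ (j + 1) := ⟨_, rfl⟩
  have hw2 : (1 / 2 : ℝ) ^ j = 2 * w := by rw [hw, pow_succ]; ring
  have hw0 : 0 ≤ w := by rw [hw]; positivity
  have hmem : ∀ x ∈ level f j, w ≤ f x := fun x hx => hw ▸ (mem_filter.1 hx).2.1.le
  rw [hw2]
  constructor
  · have h := card_nsmul_le_sum _ _ _ hmem
    rw [nsmul_eq_mul] at h
    linarith [h.trans ((sum_le_sum_of_subset_of_nonneg (subset_univ _)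
      fun x _ _ => hf.nonneg x).trans_eq hf.sum_eq)]
  · have h := card_nsmul_le_sum _ _ _ fun x hx => pow_le_pow_left₀ hw0 (hmem x hx) 2
    rw [nsmul_eq_mul] at h
    have := h.trans (sum_le_sum_of_subset_of_nonneg (subset_univ _) fun x _ _ => sq_nonneg (f x))
    rw [sqNorm]
    linarith

theorem sum_card_shift_sq (A B : Finset (ZMod p)) :
    ∑ x, #(B.filter fun y => x + y ∈ A) ^ 2 =
      ∑ d, BalogSzemerediGowers.repDiff A d * BalogSzemerediGowers.repDiff B d := by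
  calc ∑ x, #(B.filter fun y => x + y ∈ A) ^ 2
      = ∑ z ∈ B ×ˢ B, #((univ : Finset (ZMod p)).filter fun x => x + z.1 ∈ A ∧ x + z.2 ∈ A) := by
        simp only [sq, card_filter, sum_mul_sum, sum_product, ite_zero_mul_ite_zero, one_mul]
        rw [sum_comm]
        exact sum_congr rfl fun a _ => sum_comm
    _ = ∑ z ∈ B ×ˢ B, BalogSzemerediGowers.repDiff A (z.1 - z.2) := by
        refine sum_congr rfl fun z _ => card_nbij' (fun x => (x + z.1, x + z.2))
          (fun w => w.1 - z.1) ?_ ?_ ?_ ?_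
        · intro x hx
          simp only [mem_coe, mem_filter, mem_univ, true_and, mem_product] at hx ⊢
          exact ⟨hx, by ring⟩
        · intro w hw
          simp only [mem_coe, mem_filter, mem_univ, true_and, mem_product] at hw ⊢
          refine ⟨by simpa using hw.1.1, ?_⟩
          rw [show w.1 - z.1 + z.2 = w.2 by linear_combination hw.2]
          exact hw.1.2
        · intro x _
          simp
        · intro w hw
          simp only [mem_coe, mem_filter] at hw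
          exact Prod.ext (sub_add_cancel _ _) (by simp only; linear_combination hw.2)
    _ = _ := by
        rw [← sum_fiberwise (g := fun z : ZMod p × ZMod p => z.1 - z.2)]
        refine sum_congr rfl fun d _ => ?_
        rw [sum_congr rfl fun z hz => by rw [(mem_filter.1 hz).2], sum_const, smul_eq_mul, mul_comm]
        rfl

theorem addEnergy_eq_sum_univ (A : Finset (ZMod p)) :
    A.addEnergy A = ∑ d, BalogSzemerediGowers.repDiff A d ^ 2 := by
  rw [BalogSzemerediGowers.addEnergy_eq_sum]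
  refine sum_subset (subset_univ _) fun d _ hd => ?_
  rw [BalogSzemerediGowers.repDiff, sq_eq_zero_iff, card_eq_zero, filter_eq_empty_iff]
  exact fun z hz e => hd (e ▸ sub_mem_sub (mem_product.1 hz).1 (mem_product.1 hz).2)

/-- **A level set of large energy.** -/
theorem exists_level {H : Finset (ZMod p)} {f : ZMod p → ℝ} (hf : IsDensity H f) {L : ℕ}
    (hL : (1 / 2 : ℝ) ^ L ≤ 1 / (p : ℝ) ^ 4) (hL0 : 1 ≤ L) (hLp : (L : ℝ) ≤ 9 * p) {σ : ℝ}
    (hσ : 1 / (p : ℝ) ≤ σ) (hp : 1000 ≤ p) (h : σ * sqNorm f ≤ sqNorm (corr f f)) :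
    ∃ j < L, σ / (4 * (L : ℝ) ^ 4) * sqNorm f ≤
      ((1 / 2 : ℝ) ^ j) ^ 4 * (level f j).addEnergy (level f j) := by
  obtain ⟨w, hw⟩ : ∃ w : ℕ → ℝ, w = fun j => (1 / 2 : ℝ) ^ j := ⟨_, rfl⟩
  obtain ⟨c, hc⟩ : ∃ c : ℕ → ℕ → ZMod p → ℝ, c = fun i j x =>
      w i * w j * (#((level f j).filter fun y => x + y ∈ level f i) : ℝ) := ⟨_, rfl⟩
  obtain ⟨τ, hτ⟩ : ∃ τ : ℝ, τ = (1 / 2 : ℝ) ^ L := ⟨_, rfl⟩
  obtain ⟨M, hM⟩ : ∃ M : ZMod p → ℝ,
      M = fun x => ∑ j ∈ range L, (if x ∈ level f j then w j else 0) := ⟨_, rfl⟩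
  have hfM : ∀ x, f x ≤ M x + τ := fun x => by
    rw [hM, hw, hτ]; exact le_sum_level (hf.le_one x) L
  have hM0 : ∀ x, 0 ≤ M x := fun x => by
    rw [hM, hw]; exact sum_nonneg fun j _ => by positivity
  have hτ0 : 0 ≤ τ := by rw [hτ]; positivity
  have hMsum : ∑ x, M x ≤ 2 * L := by
    rw [hM]
    simp only
    rw [sum_comm]
    refine (sum_le_card_nsmul _ _ 2 fun j _ => ?_).trans (le_of_eq (by simp [mul_comm]))
    rw [← sum_filter, filter_mem_eq_inter, univ_inter, sum_const, nsmul_eq_mul, hw, mul_comm]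
    exact (level_card_le hf j).1
  have hτp : τ * p ≤ 1 := by
    rw [hτ]
    refine (mul_le_mul_of_nonneg_right hL (Nat.cast_nonneg p)).trans ?_
    rw [div_mul_eq_mul_div, one_mul, div_le_one (by positivity)]
    exact le_self_pow₀ (by exact_mod_cast (show 1 ≤ p by omega)) (by norm_num)
  have hg : ∀ x, corr f f x ≤
      ∑ z ∈ range L ×ˢ range L, c z.1 z.2 x + τ * (4 * L + 1) := fun x => by
    have h1 : corr f f x ≤ ∑ y, M (x + y) * M y + τ * ∑ y, M (x + y) + τ * ∑ y, M y +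
        τ * τ * p := by
      refine (sum_le_sum fun y _ =>
        mul_le_mul (hfM (x + y)) (hfM y) (hf.nonneg _) (add_nonneg (hM0 _) hτ0)).trans (le_of_eq ?_)
      simp only [add_mul, mul_add, sum_add_distrib, ← mul_sum, ← sum_mul, sum_const, card_univ,
        ZMod.card, nsmul_eq_mul]
      ring
    have h2 : ∑ y, M (x + y) * M y = ∑ z ∈ range L ×ˢ range L, c z.1 z.2 x := by
      rw [hM, sum_product]
      simp only [sum_mul_sum]
      rw [sum_comm]
      refine sum_congr rfl fun i _ => ?_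
      rw [sum_comm]
      refine sum_congr rfl fun j _ => ?_
      rw [hc]
      simp only [ite_mul, zero_mul, mul_ite, mul_zero, ← ite_and]
      rw [← sum_filter, sum_const, nsmul_eq_mul, mul_comm]
      congr 2
      congr 1
      ext y
      simp [and_comm]
    rw [show ∑ y, M (x + y) = ∑ y, M y from Equiv.sum_comp (Equiv.addLeft x) M] at h1
    have h3 := mul_le_mul_of_nonneg_left hMsum hτ0
    have h4 : τ * τ * p ≤ τ := by
      rw [mul_assoc]
      exact mul_le_of_le_one_right hτ0 hτp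
    linarith
  obtain ⟨j, hj, hmax⟩ := exists_max_image (range L)
    (fun j => w j ^ 4 * ((level f j).addEnergy (level f j) : ℝ)) ⟨0, mem_range.2 hL0⟩
  refine ⟨j, mem_range.1 hj, ?_⟩
  obtain ⟨V, hV⟩ : ∃ V, V = w j ^ 4 * ((level f j).addEnergy (level f j) : ℝ) := ⟨_, rfl⟩
  rw [hw] at hV
  rw [← hV]
  have hcsum : ∀ z ∈ range L ×ˢ range L, ∑ x, c z.1 z.2 x ^ 2 ≤ V := by
    intro z hz
    rw [mem_product] at hz
    rw [hc]
    simp only [mul_pow, ← mul_sum]
    have e : ∑ x, (#((level f z.2).filter fun y => x + y ∈ level f z.1) : ℝ) ^ 2 =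
        ∑ d, (BalogSzemerediGowers.repDiff (level f z.1) d : ℝ) *
          BalogSzemerediGowers.repDiff (level f z.2) d := by
      exact_mod_cast sum_card_shift_sq (level f z.1) (level f z.2)
    rw [e, mul_sum]
    refine (sum_le_sum (g := fun d =>
      (w z.1 ^ 4 * (BalogSzemerediGowers.repDiff (level f z.1) d : ℝ) ^ 2 +
        w z.2 ^ 4 * (BalogSzemerediGowers.repDiff (level f z.2) d : ℝ) ^ 2) / 2)
      fun d _ => ?_).trans ?_
    · have := two_mul_le_add_sq (w z.1 ^ 2 * (BalogSzemerediGowers.repDiff (level f z.1) d : ℝ))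
        (w z.2 ^ 2 * (BalogSzemerediGowers.repDiff (level f z.2) d : ℝ))
      linarith
    · rw [← sum_div, sum_add_distrib, ← mul_sum, ← mul_sum]
      have h1 := hmax z.1 hz.1
      have h2 := hmax z.2 hz.2
      simp only [addEnergy_eq_sum_univ, Nat.cast_sum, Nat.cast_pow] at h1 h2 hV
      rw [hw] at h1 h2
      rw [hV, hw]
      linarith
  have hmain : sqNorm (corr f f) ≤ 2 * ((L : ℝ) ^ 4 * V) + 2 * p * (τ * (4 * L + 1)) ^ 2 := by
    have hcorr : ∀ x, 0 ≤ corr f f x :=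
      fun x => sum_nonneg fun y _ => mul_nonneg (hf.nonneg _) (hf.nonneg _)
    refine (sum_le_sum fun x _ => (pow_le_pow_left₀ (hcorr x) (hg x) 2).trans
      (add_sq_le)).trans ?_
    rw [← mul_sum, sum_add_distrib, sum_const, card_univ, ZMod.card, nsmul_eq_mul, mul_add,
      ← mul_assoc 2 (p : ℝ)]
    refine add_le_add (mul_le_mul_of_nonneg_left ?_ two_pos.le) le_rfl
    refine (sum_le_sum fun x _ => sq_sum_le_card_mul_sum_sq).trans ?_
    rw [← mul_sum, sum_comm, card_product, card_range]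
    refine (mul_le_mul_of_nonneg_left (sum_le_card_nsmul _ _ V hcsum)
      (Nat.cast_nonneg _)).trans (le_of_eq ?_)
    rw [card_product, card_range, nsmul_eq_mul]
    push_cast
    ring
  have hp0 : (0 : ℝ) < p := Nat.cast_pos.2 (by omega)
  have htail : 2 * p * (τ * (4 * L + 1)) ^ 2 ≤ σ * sqNorm f / 2 := by
    have h1 : 1 / (p : ℝ) ^ 2 ≤ σ * sqNorm f := by
      have := mul_le_mul hσ ((div_le_iff₀' hp0).2 (one_le_card_mul_sqNorm hf))
        (by positivity) (le_trans (by positivity) hσ)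
      rwa [div_mul_div_comm, one_mul, ← sq] at this
    have h2 : τ * (4 * L + 1) ≤ 37 / (p : ℝ) ^ 3 := by
      refine (mul_le_mul (hτ ▸ hL) (show 4 * (L : ℝ) + 1 ≤ 37 * p by
        have : (1 : ℝ) ≤ p := by exact_mod_cast (show 1 ≤ p by omega)
        linarith) (by positivity) (by positivity)).trans (le_of_eq ?_)
      field_simp
    refine (mul_le_mul_of_nonneg_left (pow_le_pow_left₀ (by positivity) h2 2)
      (by positivity)).trans ?_
    refine le_trans ?_ (div_le_div_of_nonneg_right h1 two_pos.le)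
    rw [div_pow, mul_div_assoc', div_div, div_le_div_iff₀ (by positivity) (by positivity)]
    have h3 : (1000 : ℝ) ≤ p := by exact_mod_cast hp
    nlinarith [mul_le_mul_of_nonneg_left (show (5476 : ℝ) ≤ p ^ 3 by nlinarith)
      (show (0 : ℝ) ≤ p ^ 3 by positivity)]
  rw [div_mul_eq_mul_div, div_le_iff₀ (by positivity)]
  linarith

theorem card_le_addEnergy_le (A : Finset (ZMod p)) : A.addEnergy A ≤ #A ^ 3 := by
  rw [addEnergy_eq_sum_univ]
  refine (sum_le_sum fun d _ => ?_).trans (le_of_eq (?_ :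
    ∑ d, #A * BalogSzemerediGowers.repDiff A d = #A ^ 3))
  · rw [sq]
    exact Nat.mul_le_mul_right _ (BalogSzemerediGowers.repDiff_le A d)
  · rw [← mul_sum, ← sum_subset (subset_univ (A - A)) fun d _ hd => ?_,
      BalogSzemerediGowers.sum_repDiff]
    · ring
    · rw [BalogSzemerediGowers.repDiff, card_eq_zero, filter_eq_empty_iff]
      exact fun z hz e => hd (e ▸ sub_mem_sub (mem_product.1 hz).1 (mem_product.1 hz).2)

/-- Many elements of `H` are good for a part of an invariant set. -/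
theorem many_good {H A A' : Finset (ZMod p)} (hH : IsSubgroupSet H)
    (hA : ∀ h ∈ H, ∀ x, h * x ∈ A ↔ x ∈ A) (hsub : A' ⊆ A) {Q D : ℝ}
    (hne : A'.Nonempty) (hsize : (#A : ℝ) ≤ 8 * Q * #A') (hD : (#(A' + A') : ℝ) ≤ D * #A') :
    ∃ B ⊆ H, (#H : ℝ) ≤ 16 * Q * #B ∧ ∀ h ∈ B, Good A' (16 * Q * D ^ 2) h := by
  classical
  obtain ⟨r, hr⟩ : ∃ r : ZMod p → ℕ, r = fun h => #(A'.filter fun x => h * x ∈ A') := ⟨_, rfl⟩
  obtain ⟨φ, hφ⟩ : ∃ φ : ZMod p → ℕ, φ = fun x => #(H.filter fun h => h * x ∈ A') := ⟨_, rfl⟩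
  have hA'0 : (0 : ℝ) < #A' := Nat.cast_pos.2 hne.card_pos
  have hA0 : (0 : ℝ) < #A := lt_of_lt_of_le hA'0 (Nat.cast_le.2 (card_le_card hsub))
  have hQ : 0 < Q := by nlinarith
  -- the transforms of `A'` meet it in many points, on average
  have h1 : ∑ x ∈ A, φ x = #H * #A' := by
    simp only [hφ, card_filter]
    rw [sum_comm, ← smul_eq_mul, ← sum_const]
    refine sum_congr rfl fun h hh => ?_
    rw [← card_filter]
    refine card_nbij' (fun x => h * x) (fun y => h⁻¹ * y) (fun x hx => (mem_filter.1 hx).2)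
      (fun y hy => ?_) (fun x _ => inv_mul_cancel_left₀ (hH.ne_zero hh) x)
      (fun y _ => mul_inv_cancel_left₀ (hH.ne_zero hh) y)
    rw [mem_coe, mem_filter, mul_inv_cancel_left₀ (hH.ne_zero hh), hA _ (hH.inv_mem hh)]
    exact ⟨hsub hy, hy⟩
  have h2 : ∑ x ∈ A, φ x ^ 2 = #H * ∑ h ∈ H, r h := by
    calc ∑ x ∈ A, φ x ^ 2 = ∑ u ∈ H, ∑ v ∈ H, #(A.filter fun x => u * x ∈ A' ∧ v * x ∈ A') := by
          simp only [hφ, sq, card_filter, sum_mul_sum, ite_zero_mul_ite_zero, one_mul]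
          rw [sum_comm]
          exact sum_congr rfl fun a _ => sum_comm
      _ = ∑ u ∈ H, ∑ v ∈ H, r (v * u⁻¹) := by
          refine sum_congr rfl fun u hu => sum_congr rfl fun v _ => ?_
          rw [hr]
          refine card_nbij' (fun x => u * x) (fun y => u⁻¹ * y) (fun x hx => ?_) (fun y hy => ?_)
            (fun x _ => inv_mul_cancel_left₀ (hH.ne_zero hu) x)
            (fun y _ => mul_inv_cancel_left₀ (hH.ne_zero hu) y)
          · rw [mem_coe, mem_filter] at hx ⊢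
            refine ⟨hx.2.1, ?_⟩
            rw [mul_assoc, inv_mul_cancel_left₀ (hH.ne_zero hu)]
            exact hx.2.2
          · rw [mem_coe, mem_filter] at hy ⊢
            rw [mul_inv_cancel_left₀ (hH.ne_zero hu), ← mul_assoc, hA _ (hH.inv_mem hu)]
            exact ⟨hsub hy.1, hy.1, hy.2⟩
      _ = ∑ u ∈ H, ∑ h ∈ H, r h := by
          refine sum_congr rfl fun u hu => ?_
          refine sum_nbij' (fun v => v * u⁻¹) (fun h => h * u)
            (fun v hv => hH.mul_mem hv (hH.inv_mem hu)) (fun h hh => hH.mul_mem hh hu)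
            (fun v _ => inv_mul_cancel_right₀ (hH.ne_zero hu) v)
            (fun h _ => mul_inv_cancel_right₀ (hH.ne_zero hu) h) fun v _ => rfl
      _ = _ := by rw [sum_const, smul_eq_mul]
  have h3 : (#H : ℝ) * #A' ≤ 8 * Q * ∑ h ∈ H, (r h : ℝ) := by
    have hcs : (∑ x ∈ A, (φ x : ℝ)) ^ 2 ≤ #A * ∑ x ∈ A, (φ x : ℝ) ^ 2 := sq_sum_le_card_mul_sum_sq
    rw [show ∑ x ∈ A, (φ x : ℝ) = #H * #A' by exact_mod_cast h1,
      show ∑ x ∈ A, (φ x : ℝ) ^ 2 = #H * ∑ h ∈ H, (r h : ℝ) by exact_mod_cast h2] at hcs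
    have hR : 0 ≤ ∑ h ∈ H, (r h : ℝ) := sum_nonneg fun _ _ => Nat.cast_nonneg _
    refine le_of_mul_le_mul_left ?_ (mul_pos (Nat.cast_pos.2 hH.card_pos : (0 : ℝ) < #H) hA'0)
    calc (#H : ℝ) * #A' * (#H * #A') = ((#H : ℝ) * #A') ^ 2 := by ring
      _ ≤ #A * (#H * ∑ h ∈ H, (r h : ℝ)) := hcs
      _ ≤ 8 * Q * #A' * (#H * ∑ h ∈ H, (r h : ℝ)) :=
          mul_le_mul_of_nonneg_right hsize (by positivity)
      _ = _ := by ring
  refine ⟨H.filter fun h => (#A' : ℝ) ≤ 16 * Q * r h, filter_subset _ _, ?_, fun h hh => ?_⟩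
  · have h4 : ∑ h ∈ H, 16 * Q * (r h : ℝ) ≤
        #(H.filter fun h => (#A' : ℝ) ≤ 16 * Q * r h) * (16 * Q * #A') + #H * #A' := by
      rw [← sum_filter_add_sum_filter_not H fun h => (#A' : ℝ) ≤ 16 * Q * r h]
      refine add_le_add ((sum_le_card_nsmul _ _ _ fun h _ => ?_).trans_eq (nsmul_eq_mul _ _))
        ((sum_le_card_nsmul _ _ _ fun h hh => (not_le.1 (mem_filter.1 hh).2).le).trans ?_)
      · refine mul_le_mul_of_nonneg_left ?_ (by positivity)
        rw [hr]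
        exact Nat.cast_le.2 (card_filter_le _ _)
      · rw [nsmul_eq_mul]
        exact mul_le_mul_of_nonneg_right (Nat.cast_le.2 (card_filter_le _ _)) hA'0.le
    rw [← mul_sum] at h4
    refine le_of_mul_le_mul_right ?_ hA'0
    linarith
  · obtain ⟨hhH, hh⟩ := mem_filter.1 hh
    obtain ⟨C, hC⟩ : ∃ C, C = dil h (A'.filter fun x => h * x ∈ A') := ⟨_, rfl⟩
    have hCc : #C = r h := by rw [hC, card_dil (hH.ne_zero hhH), hr]
    have hC1 : C ⊆ dil h A' := hC ▸ image_subset_image (filter_subset _ _)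
    have hC2 : C ⊆ A' := fun x hx => by
      rw [hC] at hx
      obtain ⟨a, ha, rfl⟩ := mem_dil.1 hx
      exact (mem_filter.1 ha).2
    have h5 := (ruzsa_triangle_inequality_add_add_add A' C (dil h A')).trans
      (Nat.mul_le_mul (card_le_card (add_subset_add_left hC2))
        (card_le_card (add_subset_add_right hC1)))
    rw [← dil_add, card_dil (hH.ne_zero hhH), hCc] at h5
    have h6 : (#(A' + dil h A') : ℝ) * r h ≤ (D * #A') * (D * #A') := by
      refine le_trans (by exact_mod_cast h5) (mul_le_mul hD hD (Nat.cast_nonneg _) ?_)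
      exact le_trans (Nat.cast_nonneg _) hD
    refine le_of_mul_le_mul_right ?_ hA'0
    calc (#(A' + dil h A') : ℝ) * #A' ≤ #(A' + dil h A') * (16 * Q * r h) :=
          mul_le_mul_of_nonneg_left hh (Nat.cast_nonneg _)
      _ = 16 * Q * (#(A' + dil h A') * r h) := by ring
      _ ≤ 16 * Q * ((D * #A') * (D * #A')) := mul_le_mul_of_nonneg_left h6 (by positivity)
      _ = _ := by ring

theorem exists_levels_count {e : ℝ} (he : 0 < e) : ∃ C : ℝ, 1 ≤ C ∧ ∀ p : ℕ, 2 ≤ p →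
    ∃ L : ℕ, 1 ≤ L ∧ (1 / 2 : ℝ) ^ L ≤ 1 / (p : ℝ) ^ 4 ∧ (L : ℝ) ≤ 9 * p ∧
      (L : ℝ) ≤ C * (p : ℝ) ^ e := by
  refine ⟨4 + 8 / e, le_add_of_le_of_nonneg (by norm_num) (by positivity), fun p hp => ?_⟩
  refine ⟨4 * (Nat.log 2 p + 1), by omega, ?_, ?_, ?_⟩
  · rw [one_div_pow]
    refine one_div_le_one_div_of_le (by positivity) ?_
    rw [mul_comm 4, pow_mul]
    refine pow_le_pow_left₀ (Nat.cast_nonneg p) ?_ 4
    exact_mod_cast (Nat.lt_pow_succ_log_self one_lt_two p).le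
  · have := Nat.log_le_self 2 p
    exact_mod_cast (show 4 * (Nat.log 2 p + 1) ≤ 9 * p by omega)
  · have hp1 : (1 : ℝ) ≤ p := by exact_mod_cast (show 1 ≤ p by omega)
    have h1 : (Nat.log 2 p : ℝ) ≤ Real.log p / Real.log 2 := Real.natLog_le_logb p 2
    have h2 := Real.log_le_rpow_div (show (0 : ℝ) ≤ p by linarith) he
    have h3 : Real.log p / Real.log 2 ≤ 2 * ((p : ℝ) ^ e / e) := by
      rw [div_le_iff₀ (Real.log_pos one_lt_two)]
      have h5 : 1 ≤ 2 * Real.log 2 := by linarith [Real.log_two_gt_d9]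
      calc Real.log p ≤ 1 * ((p : ℝ) ^ e / e) := by linarith
        _ ≤ 2 * Real.log 2 * ((p : ℝ) ^ e / e) := mul_le_mul_of_nonneg_right h5 (by positivity)
        _ = _ := by ring
    have h4 : (1 : ℝ) ≤ (p : ℝ) ^ e := Real.one_le_rpow hp1 he.le
    push_cast
    rw [add_mul, div_mul_eq_mul_div, mul_div_assoc]
    linarith

/-- The sizes of a level set of large energy. -/
theorem level_sizes {H : Finset (ZMod p)} {f : ZMod p → ℝ} (hH : IsSubgroupSet H)
    (hf : IsDensity H f) (hf2 : 0 < sqNorm f) {j : ℕ} {Q : ℝ} (hQ : 0 < Q)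
    (hkey : 16 * sqNorm f ≤
      Q * (((1 / 2 : ℝ) ^ j) ^ 4 * (level f j).addEnergy (level f j))) :
    (level f j).Nonempty ∧
      (#(level f j) : ℝ) ^ 3 ≤ Q * (level f j).addEnergy (level f j) ∧
      (#(level f j) : ℝ) * sqNorm f ≤ Q ∧ (#H : ℝ) ≤ Q * #(level f j) := by
  obtain ⟨hw1, hw2⟩ := level_card_le hf j
  obtain ⟨w, hw⟩ : ∃ w : ℝ, w = (1 / 2 : ℝ) ^ j := ⟨_, rfl⟩
  rw [← hw] at hkey hw1 hw2
  have hw0 : 0 < w := by rw [hw]; positivity
  obtain ⟨a, ha⟩ : ∃ a : ℝ, a = #(level f j) := ⟨_, rfl⟩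
  obtain ⟨E, hE⟩ : ∃ E : ℝ, E = (level f j).addEnergy (level f j) := ⟨_, rfl⟩
  rw [← ha] at hw1 hw2
  rw [← hE] at hkey
  have hE3 : E ≤ a ^ 3 := by
    rw [ha, hE]
    exact_mod_cast card_le_addEnergy_le (level f j)
  have ha0 : 0 < a := by
    by_contra hc
    have h0 : a = 0 := le_antisymm (not_lt.1 hc) (ha ▸ Nat.cast_nonneg _)
    rw [h0, zero_pow (by norm_num)] at hE3
    have := mul_le_mul_of_nonneg_left hE3 (show 0 ≤ Q * w ^ 4 by positivity)
    linarith
  have hne : (level f j).Nonempty := card_pos.1 (Nat.cast_pos.1 (ha ▸ ha0))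
  have hkey3 : 16 * sqNorm f ≤ Q * (w ^ 4 * a ^ 3) :=
    hkey.trans (mul_le_mul_of_nonneg_left (mul_le_mul_of_nonneg_left hE3 (by positivity)) hQ.le)
  rw [← ha, ← hE]
  refine ⟨hne, ?_, ?_, ?_⟩
  · have h1 : 4 * a ≤ Q * w ^ 2 * E := by
      refine le_of_mul_le_mul_left ?_ (pow_pos hw0 2)
      linarith
    refine le_of_mul_le_mul_left ?_ (pow_pos hw0 2)
    have h2 : (w * a) ^ 2 ≤ 4 :=
      (pow_le_pow_left₀ (by positivity) hw1 2).trans_eq (by norm_num)
    have := mul_le_mul_of_nonneg_right h2 ha0.le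
    linarith
  · have h2 : (w * a) ^ 4 ≤ 16 :=
      (pow_le_pow_left₀ (by positivity) hw1 4).trans_eq (by norm_num)
    have h3 := mul_le_mul_of_nonneg_left hkey3 ha0.le
    have h4 := mul_le_mul_of_nonneg_left h2 hQ.le
    linarith
  · obtain ⟨x, hx⟩ := hne
    have hwH : w * #H ≤ 2 := by
      have h3 := (mem_filter.1 hx).2.1.le.trans (hf.le x)
      rw [pow_succ, ← hw, le_div_iff₀ (Nat.cast_pos.2 hH.card_pos)] at h3
      linarith
    have h4 : 4 ≤ Q * (w * a) ^ 2 := by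
      refine le_of_mul_le_mul_left ?_ (show 0 < w ^ 2 * a by positivity)
      linarith
    have h5 : 2 ≤ Q * (w * a) := by
      have := mul_le_mul_of_nonneg_left hw1 (show 0 ≤ Q * (w * a) by positivity)
      linarith
    refine le_of_mul_le_mul_left ?_ hw0
    linarith

/-- A level set of large energy gives a set which grows little under many elements of `H`. -/
theorem exists_good_set {H : Finset (ZMod p)} {f : ZMod p → ℝ} (hH : IsSubgroupSet H)
    (hf : IsDensity H f) (hf2 : 0 < sqNorm f) {j : ℕ} {Q : ℝ} (hQ : 64 ≤ Q)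
    (hkey : 16 * sqNorm f ≤
      Q * (((1 / 2 : ℝ) ^ j) ^ 4 * (level f j).addEnergy (level f j))) :
    ∃ A B : Finset (ZMod p), (#H : ℝ) ≤ Q ^ 3 * #A ∧ (#A : ℝ) * sqNorm f ≤ Q ∧
      (#H : ℝ) ≤ Q ^ 2 * #B ∧ ∀ ξ, ξ = 1 ∨ ξ ∈ B → Good A (2 ^ 92 * Q ^ 41) ξ := by
  obtain ⟨hAne, hAQ, hAhi, hAlo⟩ := level_sizes hH hf hf2 (by linarith) hkey
  have hinv : ∀ h ∈ H, ∀ x, h * x ∈ level f j ↔ x ∈ level f j := fun h hh x => by
    simp only [level, mem_filter, mem_univ, true_and, hf.inv h hh x]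
  obtain ⟨-, A', hsub, hne, hsize, -, hsum⟩ :=
    BalogSzemerediGowers.exists_subset_small_doubling hAne hAQ
  obtain ⟨B, -, hBcard, hgood⟩ := many_good hH hinv hsub hne hsize hsum
  have hQ1 : (1 : ℝ) ≤ Q := by linarith
  have hK : 16 * Q * ((2 ^ 22 * Q ^ 10) ^ 2) ^ 2 = 2 ^ 92 * Q ^ 41 := by ring
  refine ⟨A', B, ?_, ?_, ?_, ?_⟩
  · calc (#H : ℝ) ≤ Q * #(level f j) := hAlo
      _ ≤ Q * (8 * Q * #A') := mul_le_mul_of_nonneg_left hsize (by linarith)
      _ = 8 * (Q ^ 2 * #A') := by ring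
      _ ≤ Q * (Q ^ 2 * #A') := mul_le_mul_of_nonneg_right (by linarith) (by positivity)
      _ = _ := by ring
  · exact (mul_le_mul_of_nonneg_right (Nat.cast_le.2 (card_le_card hsub)) hf2.le).trans hAhi
  · refine hBcard.trans (mul_le_mul_of_nonneg_right ?_ (Nat.cast_nonneg _))
    rw [sq]
    exact mul_le_mul_of_nonneg_right (by linarith) (by linarith)
  · rintro ξ (rfl | hξ)
    · rw [Good, dil_one]
      refine hsum.trans (mul_le_mul_of_nonneg_right ?_ (Nat.cast_nonneg _))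
      rw [← hK]
      refine le_trans ?_ (le_mul_of_one_le_left (by positivity) (by linarith))
      exact le_self_pow₀ (one_le_pow₀ (one_le_mul_of_one_le_of_one_le (by norm_num)
        (one_le_pow₀ hQ1))) two_ne_zero
    · exact hK ▸ hgood ξ hξ

/-- **Flattening.** -/
theorem exists_flatten {δ η : ℝ} (hδ : 0 < δ) (hη : 0 < η) : ∃ ε C : ℝ, 0 < ε ∧ 1 ≤ C ∧
    ∀ (p : ℕ) [Fact p.Prime] (H : Finset (ZMod p)) (f : ZMod p → ℝ), IsSubgroupSet H →
      IsDensity H f → (p : ℝ) ^ δ ≤ #H → (p : ℝ) ^ (-1 + η) ≤ sqNorm f →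
        sqNorm (corr f f) ≤ C * (p : ℝ) ^ (-ε) * sqNorm f := by
  obtain ⟨θ, hθ⟩ : ∃ θ : ℝ, θ = min (min δ η) 1 / 4 := ⟨_, rfl⟩
  have hθ0 : 0 < θ := by rw [hθ]; positivity
  have hθδ : 4 * θ ≤ δ := by rw [hθ]; linarith [min_le_left (min δ η) 1, min_le_left δ η]
  have hθη : 4 * θ ≤ η := by rw [hθ]; linarith [min_le_left (min δ η) 1, min_le_right δ η]
  have hθ1 : 4 * θ ≤ 1 := by rw [hθ]; linarith [min_le_right (min δ η) 1]
  obtain ⟨N, C₁, hN, hC₁, hgrow⟩ := exists_good_bound (half_pos hδ) hθ0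
  obtain ⟨ε, hε⟩ : ∃ ε : ℝ, ε = θ / (250 * N) := ⟨_, rfl⟩
  have hN1 : (1 : ℝ) ≤ N := by exact_mod_cast hN
  have hε0 : 0 < ε := by rw [hε]; positivity
  have hεN : 250 * (N : ℝ) * ε = θ := by rw [hε]; field_simp
  have hεθ : 250 * ε ≤ θ := by nlinarith
  obtain ⟨C₂, hC₂, hlev⟩ := exists_levels_count (show 0 < ε / 4 by linarith)
  obtain ⟨P₀, hP₀⟩ := Filter.eventually_atTop.1 (((tendsto_rpow_atTop hε0).eventually_ge_atTop
    (64 * C₂ ^ 4)).and (((tendsto_rpow_atTop (half_pos hθ0)).eventually_gt_atTop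
      (C₁ * (2 ^ 92) ^ N)).and (Filter.eventually_ge_atTop (1000 : ℝ))))
  refine ⟨ε, max 1 (P₀ ^ ε), hε0, le_max_left _ _, fun p _ H f hH hf hcard hbig => ?_⟩
  have hp2 := (Fact.out : p.Prime).two_le
  have hp1 : (1 : ℝ) ≤ p := by exact_mod_cast (show 1 ≤ p by omega)
  have hp0 : (0 : ℝ) < p := by linarith
  rcases lt_or_ge (p : ℝ) P₀ with hsmall | hlarge
  · refine (sqNorm_corr_le hf).trans (le_mul_of_one_le_left (sqNorm_nonneg f) ?_)
    rw [Real.rpow_neg hp0.le, ← div_eq_mul_inv, one_le_div (by positivity)]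
    exact (Real.rpow_le_rpow hp0.le hsmall.le hε0.le).trans (le_max_right _ _)
  obtain ⟨hP1, hP2, hP3⟩ := hP₀ p hlarge
  by_contra hcon
  rw [not_le] at hcon
  obtain ⟨σ, hσ⟩ : ∃ σ : ℝ, σ = (p : ℝ) ^ (-ε) := ⟨_, rfl⟩
  have hσ0 : 0 < σ := hσ ▸ Real.rpow_pos_of_pos hp0 _
  have hf2 : 0 < sqNorm f := lt_of_lt_of_le (Real.rpow_pos_of_pos hp0 _) hbig
  have hσp : 1 / (p : ℝ) ≤ σ := by
    rw [hσ, one_div, ← Real.rpow_neg_one]
    exact Real.rpow_le_rpow_of_exponent_le hp1 (by linarith)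
  have hσ1 : σ ≤ 1 := hσ ▸ Real.rpow_le_one_of_one_le_of_nonpos hp1 (by linarith)
  have hσf : σ * sqNorm f ≤ sqNorm (corr f f) := by
    refine le_trans ?_ hcon.le
    rw [hσ]
    exact mul_le_mul_of_nonneg_right (le_mul_of_one_le_left (by positivity) (le_max_left _ _))
      hf2.le
  obtain ⟨L, hL1, hL2, hL3, hL4⟩ := hlev p hp2
  obtain ⟨j, -, hj⟩ := exists_level hf hL2 hL1 hL3 hσp (by exact_mod_cast hP3) hσf
  obtain ⟨Q, hQ⟩ : ∃ Q : ℝ, Q = 64 * (L : ℝ) ^ 4 / σ := ⟨_, rfl⟩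
  have hL4' : (1 : ℝ) ≤ (L : ℝ) ^ 4 := one_le_pow₀ (by exact_mod_cast hL1)
  have hQ64 : 64 ≤ Q := by rw [hQ, le_div_iff₀ hσ0]; nlinarith
  have hQ0 : 0 < Q := by linarith
  have hkey : 16 * sqNorm f ≤
      Q * (((1 / 2 : ℝ) ^ j) ^ 4 * ((level f j).addEnergy (level f j) : ℝ)) := by
    rw [hQ, div_mul_eq_mul_div, le_div_iff₀ hσ0]
    rw [div_mul_eq_mul_div, div_le_iff₀ (by positivity)] at hj
    linarith
  obtain ⟨A, B, hA1, hA2, hB, hgood⟩ := exists_good_set hH hf hf2 hQ64 hkey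
  have hQp : Q ≤ (p : ℝ) ^ (3 * ε) := by
    rw [hQ, hσ, Real.rpow_neg hp0.le, div_inv_eq_mul, show 3 * ε = ε + ε + ε by ring,
      Real.rpow_add hp0, Real.rpow_add hp0]
    refine mul_le_mul_of_nonneg_right ?_ (by positivity)
    have h6 : (L : ℝ) ^ 4 ≤ C₂ ^ 4 * (p : ℝ) ^ ε := by
      refine (pow_le_pow_left₀ (Nat.cast_nonneg L) hL4 4).trans (le_of_eq ?_)
      rw [mul_pow, ← Real.rpow_natCast ((p : ℝ) ^ _) 4, ← Real.rpow_mul hp0.le]
      push_cast
      ring_nf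
    calc 64 * (L : ℝ) ^ 4 ≤ 64 * (C₂ ^ 4 * (p : ℝ) ^ ε) := by linarith
      _ = 64 * C₂ ^ 4 * (p : ℝ) ^ ε := by ring
      _ ≤ _ := mul_le_mul_of_nonneg_right hP1 (by positivity)
  have hpow : ∀ n : ℕ, Q ^ n ≤ (p : ℝ) ^ (3 * ε * n) := fun n => by
    rw [Real.rpow_mul hp0.le, Real.rpow_natCast]
    exact pow_le_pow_left₀ hQ0.le hQp n
  -- the hypotheses of the expansion theorem
  have hAlo : (p : ℝ) ^ θ ≤ #A := by
    refine le_of_mul_le_mul_left ?_ (Real.rpow_pos_of_pos hp0 (3 * ε * (3 : ℕ)))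
    refine le_trans ?_ ((hcard.trans hA1).trans
      (mul_le_mul_of_nonneg_right (hpow 3) (Nat.cast_nonneg _)))
    rw [← Real.rpow_add hp0]
    exact Real.rpow_le_rpow_of_exponent_le hp1 (by push_cast; linarith)
  have hAhi : (#A : ℝ) ≤ (p : ℝ) ^ (1 - θ) := by
    refine le_of_mul_le_mul_right ?_ hf2
    refine hA2.trans (hQp.trans (le_trans ?_
      (mul_le_mul_of_nonneg_left hbig (Real.rpow_nonneg hp0.le _))))
    rw [← Real.rpow_add hp0]
    exact Real.rpow_le_rpow_of_exponent_le hp1 (by linarith)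
  have hBlo : (p : ℝ) ^ (δ / 2) ≤ #B := by
    refine le_of_mul_le_mul_left ?_ (Real.rpow_pos_of_pos hp0 (3 * ε * (2 : ℕ)))
    refine le_trans ?_ ((hcard.trans hB).trans
      (mul_le_mul_of_nonneg_right (hpow 2) (Nat.cast_nonneg _)))
    rw [← Real.rpow_add hp0]
    exact Real.rpow_le_rpow_of_exponent_le hp1 (by push_cast; linarith)
  obtain ⟨c, hc⟩ : ∃ c : ℝ, c = 2 ^ 92 := ⟨_, rfl⟩
  rw [← hc] at hgood hP2
  have hc1 : 1 ≤ c := by rw [hc]; exact one_le_pow₀ one_le_two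
  have hK1 : 1 ≤ c * Q ^ 41 :=
    one_le_mul_of_one_le_of_one_le hc1 (one_le_pow₀ (by linarith))
  refine absurd (hgrow p A B (c * Q ^ 41) hK1 hAlo hAhi hBlo (hgood 1 (Or.inl rfl))
    fun ξ hξ => hgood ξ (Or.inr hξ)) (not_le.2 ?_)
  have h8 : (c * Q ^ 41) ^ N ≤ c ^ N * (p : ℝ) ^ (θ / 2) := by
    rw [mul_pow, ← pow_mul]
    refine mul_le_mul_of_nonneg_left ((hpow _).trans
      (Real.rpow_le_rpow_of_exponent_le hp1 ?_)) (by positivity)
    push_cast
    rw [show 3 * ε * (41 * (N : ℝ)) = 123 * ((N : ℝ) * ε) by ring]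
    rw [mul_assoc] at hεN
    linarith
  calc C₁ * (c * Q ^ 41) ^ N ≤ C₁ * c ^ N * (p : ℝ) ^ (θ / 2) := by
        rw [mul_assoc]; exact mul_le_mul_of_nonneg_left h8 (by linarith)
    _ < (p : ℝ) ^ (θ / 2) * (p : ℝ) ^ (θ / 2) :=
        mul_lt_mul_of_pos_right hP2 (Real.rpow_pos_of_pos hp0 _)
    _ = _ := by rw [← Real.rpow_add hp0]; ring_nf

end FA.BGK
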