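import Fermat.Agent.BGK.Flatten
import Mathlib.Analysis.SpecialFunctions.Complex.CircleAddChar

/-!
# Exponential sums over small subgroups

The correlation powers of a subgroup `H` with at least `p ^ δ` elements reach the `L²` norm
`p ^ (-1 + δ / 2)` after boundedly many steps, and the sum over `H` takes the same value at the
`#H` points of `a H`: so `∑ e (a h / p)` is `O (#H p ^ (-ε))`.
-/

set_option autoImplicit false

noncomputable section

namespace FA.BGK

open Finset
open scoped ComplexConjugate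

variable {p : ℕ} [Fact p.Prime]

/-- `∑ x, f x e (a x / p)`. -/
def fourier (f : ZMod p → ℝ) (a : ZMod p) : ℂ := ∑ x, (f x : ℂ) * ZMod.stdAddChar (a * x)

theorem fourier_corr (f : ZMod p → ℝ) (a : ZMod p) :
    fourier (corr f f) a = fourier f a * conj (fourier f a) := by
  simp only [fourier, corr, map_sum, map_mul, Complex.conj_ofReal, ← AddChar.map_neg_eq_conj,
    mul_sum, sum_mul, Complex.ofReal_sum, Complex.ofReal_mul]
  rw [sum_comm]
  refine sum_congr rfl fun y _ => ?_
  refine Fintype.sum_equiv (Equiv.addRight y) _ _ fun x => ?_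
  rw [Equiv.coe_addRight, mul_mul_mul_comm, ← AddChar.map_add_eq_mul, ← sub_eq_add_neg, ← mul_sub,
    add_sub_cancel_right]

theorem sum_norm_sq_fourier (f : ZMod p → ℝ) : ∑ a, ‖fourier f a‖ ^ 2 = p * sqNorm f := by
  apply Complex.ofReal_injective
  simp only [sqNorm]
  push_cast
  simp only [← Complex.mul_conj', fourier, map_sum, map_mul, Complex.conj_ofReal,
    ← AddChar.map_neg_eq_conj, sum_mul_sum]
  rw [sum_comm, mul_sum]
  refine sum_congr rfl fun x _ => ?_
  rw [sum_comm, sum_eq_single x (fun y _ hy => ?_) fun h => absurd (mem_univ x) h]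
  · simp only [mul_mul_mul_comm (f x : ℂ), ← AddChar.map_add_eq_mul, add_neg_cancel,
      AddChar.map_zero_eq_one, mul_one, sum_const, card_univ, ZMod.card, nsmul_eq_mul]
    ring
  · simp only [mul_mul_mul_comm (f x : ℂ), ← AddChar.map_add_eq_mul, ← sub_eq_add_neg, ← mul_sub,
      ← mul_sum]
    rw [AddChar.sum_mulShift _ (ZMod.isPrimitive_stdAddChar p), if_neg (sub_ne_zero.2 hy.symm)]
    simp

theorem card_mul_sq_fourier_le {H : Finset (ZMod p)} (hH : IsSubgroupSet H) {f : ZMod p → ℝ}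
    (hf : IsDensity H f) {a : ZMod p} (ha : a ≠ 0) :
    #H * ‖fourier f a‖ ^ 2 ≤ p * sqNorm f := by
  have e : ∀ h ∈ H, fourier f (a * h) = fourier f a := fun h hh => by
    refine Fintype.sum_equiv (Equiv.mulLeft₀ h (hH.ne_zero hh)) _ _ fun x => ?_
    show _ = (f (h * x) : ℂ) * ZMod.stdAddChar (a * (h * x))
    rw [hf.inv h hh, mul_assoc a]
  rw [← sum_norm_sq_fourier]
  calc (#H : ℝ) * ‖fourier f a‖ ^ 2 = ∑ h ∈ H, ‖fourier f (a * h)‖ ^ 2 := by
        rw [sum_congr rfl fun h hh => by rw [e h hh], sum_const, nsmul_eq_mul]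
    _ = ∑ b ∈ H.image fun h => a * h, ‖fourier f b‖ ^ 2 :=
        (sum_image (f := fun b => ‖fourier f b‖ ^ 2) fun x _ y _ h => mul_left_cancel₀ ha h).symm
    _ ≤ _ := sum_le_sum_of_subset_of_nonneg (subset_univ _) fun _ _ _ => sq_nonneg _

/-- The correlation powers of `H`. -/
def power (H : Finset (ZMod p)) : ℕ → ZMod p → ℝ
  | 0 => fun x => if x ∈ H then 1 / #H else 0
  | n + 1 => corr (power H n) (power H n)

theorem isDensity_power {H : Finset (ZMod p)} (hH : IsSubgroupSet H) :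
    ∀ n, IsDensity H (power H n)
  | 0 => by
    have h0 : (0 : ℝ) < #H := Nat.cast_pos.2 hH.card_pos
    refine ⟨fun x => ?_, ?_, fun h hh x => ?_, fun x => ?_⟩ <;> rw [power]
    · positivity
    · rw [← sum_filter, filter_mem_eq_inter, univ_inter, sum_const, nsmul_eq_mul]
      field_simp
    · refine if_congr ⟨fun hx => ?_, fun hx => hH.mul_mem hh hx⟩ rfl rfl
      simpa [inv_mul_cancel_left₀ (hH.ne_zero hh)] using hH.mul_mem (hH.inv_mem hh) hx
    · dsimp only
      split_ifs
      · exact le_rfl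
      · positivity
  | n + 1 => (isDensity_power hH n).corr_self hH

theorem norm_fourier_power (H : Finset (ZMod p)) (a : ZMod p) :
    ∀ n, ‖fourier (power H n) a‖ = (‖∑ h ∈ H, ZMod.stdAddChar (a * h)‖ / #H) ^ 2 ^ n
  | 0 => by
    have e : fourier (power H 0) a = ((1 / #H : ℝ) : ℂ) * ∑ h ∈ H, ZMod.stdAddChar (a * h) := by
      simp only [fourier, power, apply_ite (fun t : ℝ => (t : ℂ)), Complex.ofReal_zero, ite_mul,
        zero_mul]
      rw [← sum_filter, filter_mem_eq_inter, univ_inter, mul_sum]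
    rw [e, norm_mul, Complex.norm_real, Real.norm_of_nonneg (by positivity), pow_zero, pow_one,
      one_div_mul_eq_div]
  | n + 1 => by
    rw [power, fourier_corr, norm_mul, Complex.norm_conj, norm_fourier_power H a n, ← pow_add,
      pow_succ, mul_two]

theorem sqNorm_power_le {δ η : ℝ} (hδ : 0 < δ) (hη : 0 < η) :
    ∃ (n : ℕ) (C : ℝ), 0 < C ∧ ∀ (p : ℕ) [Fact p.Prime] (H : Finset (ZMod p)), IsSubgroupSet H →
      (p : ℝ) ^ δ ≤ #H → sqNorm (power H n) ≤ C * (p : ℝ) ^ (-1 + η) := by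
  obtain ⟨ε, C, hε, hC, hflat⟩ := exists_flatten hδ hη
  obtain ⟨n, hn⟩ := exists_nat_gt (1 / ε)
  refine ⟨n, C ^ n, by positivity, fun p _ H hH hcard => ?_⟩
  have hp1 : (1 : ℝ) ≤ p := by exact_mod_cast (Fact.out : p.Prime).one_le
  have hp0 : (0 : ℝ) < p := by linarith
  have key : ∀ m : ℕ, sqNorm (power H m) ≤
      C ^ m * max ((p : ℝ) ^ (-1 + η)) ((p : ℝ) ^ (-(ε * m))) := fun m => by
    induction m with
    | zero =>
      refine le_trans ?_ (le_mul_of_one_le_right (by positivity) (le_max_of_le_right (by simp)))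
      rw [pow_zero, ← (isDensity_power hH 0).sum_eq]
      refine sum_le_sum fun x _ => ?_
      rw [sq]
      exact mul_le_of_le_one_right ((isDensity_power hH 0).nonneg x)
        ((isDensity_power hH 0).le_one x)
    | succ m ih =>
      have hd := isDensity_power hH m
      rw [pow_succ' C, mul_assoc]
      rcases lt_or_ge (sqNorm (power H m)) ((p : ℝ) ^ (-1 + η)) with h | h
      · refine ((sqNorm_corr_le hd).trans (h.le.trans ?_))
        refine le_trans ?_ (le_mul_of_one_le_left (by positivity) hC)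
        exact le_trans (le_max_left _ _) (le_mul_of_one_le_left (by positivity) (one_le_pow₀ hC))
      · refine (hflat p H _ hH hd hcard h).trans ?_
        rw [mul_assoc]
        refine mul_le_mul_of_nonneg_left ((mul_le_mul_of_nonneg_left ih (by positivity)).trans ?_)
          (by linarith)
        rw [mul_left_comm, mul_max_of_nonneg _ _ (Real.rpow_nonneg hp0.le _)]
        refine mul_le_mul_of_nonneg_left (max_le_max (mul_le_of_le_one_left (by positivity)
          (Real.rpow_le_one_of_one_le_of_nonpos hp1 (by linarith))) (le_of_eq ?_)) (by positivity)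
        rw [← Real.rpow_add hp0]
        push_cast
        ring_nf
  refine (key n).trans (mul_le_mul_of_nonneg_left (max_le le_rfl ?_) (by positivity))
  refine Real.rpow_le_rpow_of_exponent_le hp1 ?_
  rw [div_lt_iff₀ hε] at hn
  linarith

/-- **The theorem of Bourgain, Glibichuk and Konyagin.** -/
theorem exists_sum_bound {δ : ℝ} (hδ : 0 < δ) : ∃ ε C : ℝ, 0 < ε ∧ 1 ≤ C ∧
    ∀ (p : ℕ) [Fact p.Prime] (H : Finset (ZMod p)), IsSubgroupSet H → (p : ℝ) ^ δ ≤ #H →
      ∀ a : ZMod p, a ≠ 0 →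
        ‖∑ h ∈ H, ZMod.stdAddChar (a * h)‖ ≤ C * #H * (p : ℝ) ^ (-ε) := by
  obtain ⟨n, C, hC, hflat⟩ :=
    sqNorm_power_le hδ (show 0 < min (δ / 2) 1 by positivity)
  obtain ⟨M, hM⟩ : ∃ M : ℕ, M = 2 ^ (n + 1) := ⟨_, rfl⟩
  have hM0 : M ≠ 0 := hM ▸ pow_ne_zero _ two_ne_zero
  refine ⟨δ / 2 / M, max 1 (C ^ (M⁻¹ : ℝ)), by positivity, le_max_left _ _,
    fun p _ H hH hcard a ha => ?_⟩
  have hp1 : (1 : ℝ) ≤ p := by exact_mod_cast (Fact.out : p.Prime).one_le
  have hp0 : (0 : ℝ) < p := by linarith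
  have hH0 : (0 : ℝ) < #H := Nat.cast_pos.2 hH.card_pos
  obtain ⟨t, ht⟩ : ∃ t : ℝ, t = ‖∑ h ∈ H, ZMod.stdAddChar (a * h)‖ / #H := ⟨_, rfl⟩
  have ht0 : 0 ≤ t := by rw [ht]; positivity
  have h1 := card_mul_sq_fourier_le hH (isDensity_power hH n) ha
  rw [norm_fourier_power, ← ht, ← pow_mul, ← pow_succ, ← hM] at h1
  have h2 : t ^ M ≤ C * (p : ℝ) ^ (-(δ / 2)) := by
    have h3 : (p : ℝ) ^ δ * t ^ M ≤ C * (p : ℝ) ^ (min (δ / 2) 1) := by
      refine (mul_le_mul_of_nonneg_right hcard (by positivity)).trans (h1.trans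
        ((mul_le_mul_of_nonneg_left (hflat p H hH hcard) hp0.le).trans (le_of_eq ?_)))
      rw [Real.rpow_add hp0, Real.rpow_neg_one]
      field_simp
    refine le_of_mul_le_mul_left (h3.trans ?_) (Real.rpow_pos_of_pos hp0 δ)
    rw [mul_left_comm, ← Real.rpow_add hp0]
    refine mul_le_mul_of_nonneg_left (Real.rpow_le_rpow_of_exponent_le hp1 ?_) hC.le
    linarith [min_le_left (δ / 2) 1]
  have h4 : t ≤ max 1 (C ^ (M⁻¹ : ℝ)) * (p : ℝ) ^ (-(δ / 2 / M)) := by
    refine le_trans ?_ (mul_le_mul_of_nonneg_right (le_max_right _ _) (by positivity))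
    have h5 := Real.rpow_le_rpow (by positivity) h2 (show 0 ≤ (M⁻¹ : ℝ) by positivity)
    rw [Real.pow_rpow_inv_natCast ht0 hM0, Real.mul_rpow hC.le (by positivity),
      ← Real.rpow_mul hp0.le] at h5
    refine h5.trans (le_of_eq ?_)
    rw [neg_mul, ← div_eq_mul_inv]
  rw [ht, div_le_iff₀ hH0] at h4
  linarith

end FA.BGK
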